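import Mathlib
import Fermat.Prelude.Def_AlgebraicCurve_BaseChangeGalois
import Fermat.Agent.Lib.RR.H443.Bridge

/-!
# Places of a function field `F = K(x, y)` over a simple point of the plane model
(helper602, row S15, piece FFu-ABS)

`K` a field, `F ⊇ K` a field, `x y : F`, `a b : K`.  Bivariate polynomials `G : K[X][X]`
(inner variable `↦ x`, outer variable `↦ y`) are evaluated by

* `ev x y G = G(x, y) ∈ F`   and   `ev0 a b G = G(a, b) ∈ K`.

A place `P` is *centred at* `(a, b)` if `x - a, y - b ∈ 𝔪_P` (`IsCentredAt P x y a b`).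

Main results:

* `IsCentredAt.ev_sub_mem` : `G(x,y) - G(a,b) ∈ 𝔪_P` for every `G`;
* `IsCentredAt.unique` : if `F = K(x,y)` and `(a,b)` is a simple point of some relation `Ψ`
  (`Ψ(x,y) = 0`, `∂Ψ/∂Y (a,b) ≠ 0`) then there is at most one place centred at `(a,b)`;
* `exists_isCentredAt` : `K` algebraically closed, `x` transcendental, `[F : K(x)] < ∞`, and
  `(a, b)` a `K`-point of the plane model (`G(x,y) = 0 → G(a,b) = 0`): a place centred at `(a,b)`
  exists;
* `isPointOf_of_monic` : the last hypothesis follows from `Ψ(a,b) = 0` when `Ψ` is monic in `Y` and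
  `y` satisfies no relation over `K[x]` of smaller `Y`-degree;
* `IsCentredAt.smul_eq` : the unique place is fixed by every semilinear automorphism fixing
  `x`, `y`, `a`, `b` (Galois-fixedness).
-/

set_option autoImplicit false

noncomputable section

namespace Fermat.Agent.S15.H602

open Polynomial AlgebraicCurve

variable {K F : Type*} [Field K] [Field F] [Algebra K F]

/-- `G ↦ G(x, y)` for `G ∈ K[X][Y]`. -/
def ev (x y : F) : K[X][X] →+* F :=
  eval₂RingHom ((aeval x : K[X] →ₐ[K] F) : K[X] →+* F) y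

/-- `G ↦ G(a, b)` for `G ∈ K[X][Y]`. -/
def ev0 (a b : K) : K[X][X] →+* K :=
  eval₂RingHom (evalRingHom a) b

section evLemmas

variable (x y : F) (a b : K)

@[simp] theorem ev_C (g : K[X]) : ev x y (C g) = aeval x g := by simp [ev]

@[simp] theorem ev_X : ev x y (X : K[X][X]) = y := by simp [ev]

theorem ev_C_C (c : K) : ev x y (C (C c)) = algebraMap K F c := by simp

theorem ev_C_X : ev x y (C (X : K[X])) = x := by simp

@[simp] theorem ev0_C (g : K[X]) : ev0 a b (C g) = g.eval a := by simp [ev0]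

@[simp] theorem ev0_X : ev0 a b (X : K[X][X]) = b := by simp [ev0]

theorem ev0_C_C (c : K) : ev0 a b (C (C c)) = c := by simp

theorem ev0_C_X : ev0 a b (C (X : K[X])) = a := by simp

theorem ev0_eq_evalEval (G : K[X][X]) : ev0 a b G = G.evalEval a b := by
  rw [ev0, coe_eval₂RingHom, eval₂_evalRingHom]

/-- `ev0` through `map`: `G(a, Y)` evaluated at `b`. -/
theorem ev0_eq_eval_map (G : K[X][X]) : ev0 a b G = (G.map (evalRingHom a)).eval b := by
  rw [ev0, coe_eval₂RingHom, eval₂_eq_eval_map]

/-- `G = G(a,b) + A · (X - a) + B · (Y - b)`. -/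
theorem exists_decomp (G : K[X][X]) :
    ∃ A B : K[X][X], G = C (C (ev0 a b G)) + A * C (X - C a) + B * (X - C (C b)) := by
  obtain ⟨B, hB⟩ : (X - C (C b) : K[X][X]) ∣ G - C (G.eval (C b)) := X_sub_C_dvd_sub_C_eval
  obtain ⟨A, hA⟩ : (X - C a : K[X]) ∣ G.eval (C b) - C ((G.eval (C b)).eval a) :=
    X_sub_C_dvd_sub_C_eval
  refine ⟨C A, B, ?_⟩
  have h1 : ev0 a b G = (G.eval (C b)).eval a := ev0_eq_evalEval a b G
  have h2 : G = C (G.eval (C b)) + (X - C (C b)) * B := by rw [← hB]; ring
  have h3 : G.eval (C b) = C ((G.eval (C b)).eval a) + (X - C a) * A := by rw [← hA]; ring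
  rw [h1]
  conv_lhs => rw [h2, h3]
  simp only [map_add, map_mul, map_sub]
  ring

end evLemmas

/-- `O · 𝔪 ⊆ 𝔪` for a valuation subring. -/
theorem mul_mem_nonunits (O : ValuationSubring F) {u m : F} (hu : u ∈ O)
    (hm : m ∈ O.nonunits) : u * m ∈ O.nonunits := by
  rw [ValuationSubring.mem_nonunits_iff] at hm ⊢
  rw [map_mul]
  have hu' := (O.valuation_le_one_iff u).mpr hu
  calc O.valuation u * O.valuation m ≤ 1 * O.valuation m := mul_le_mul_left hu' _
    _ = O.valuation m := one_mul _
    _ < 1 := hm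

/-- The place `P` is centred at the point `(a, b)` of the `(x, y)`-plane. -/
structure IsCentredAt (P : Place K F) (x y : F) (a b : K) : Prop where
  hx : x - algebraMap K F a ∈ P.toValuationSubring.nonunits
  hy : y - algebraMap K F b ∈ P.toValuationSubring.nonunits

namespace IsCentredAt

variable {P : Place K F} {x y : F} {a b : K}

theorem x_mem (h : IsCentredAt P x y a b) : x ∈ P.toValuationSubring := by
  have := P.toValuationSubring.add_mem _ _ (ValuationSubring.nonunits_subset h.hx)
    (P.algebraMap_mem' a)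
  simpa using this

theorem y_mem (h : IsCentredAt P x y a b) : y ∈ P.toValuationSubring := by
  have := P.toValuationSubring.add_mem _ _ (ValuationSubring.nonunits_subset h.hy)
    (P.algebraMap_mem' b)
  simpa using this

theorem aeval_mem (h : IsCentredAt P x y a b) (g : K[X]) : aeval x g ∈ P.toValuationSubring := by
  induction g using Polynomial.induction_on' with
  | add p q hp hq => rw [map_add]; exact add_mem hp hq
  | monomial m c =>
    rw [← C_mul_X_pow_eq_monomial, map_mul, map_pow, aeval_C, aeval_X]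
    exact mul_mem (P.algebraMap_mem' c) (pow_mem h.x_mem m)

/-- `G(x, y) ∈ O_P`. -/
theorem ev_mem (h : IsCentredAt P x y a b) (G : K[X][X]) : ev x y G ∈ P.toValuationSubring := by
  induction G using Polynomial.induction_on' with
  | add p q hp hq => rw [map_add]; exact add_mem hp hq
  | monomial n g =>
    rw [← C_mul_X_pow_eq_monomial, map_mul, map_pow, ev_C, ev_X]
    exact mul_mem (h.aeval_mem g) (pow_mem h.y_mem n)

/-- `G(x, y) ≡ G(a, b)` modulo `𝔪_P`. -/
theorem ev_sub_mem (h : IsCentredAt P x y a b) (G : K[X][X]) :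
    ev x y G - algebraMap K F (ev0 a b G) ∈ P.toValuationSubring.nonunits := by
  obtain ⟨A, B, hAB⟩ := exists_decomp a b G
  have key : ev x y G - algebraMap K F (ev0 a b G) =
      ev x y A * (x - algebraMap K F a) + ev x y B * (y - algebraMap K F b) := by
    have e := congrArg (ev x y) hAB
    simp only [map_add, map_mul, map_sub, ev_C, ev_X, aeval_C, aeval_X] at e
    rw [e]
    ring
  rw [key]
  exact add_mem (mul_mem_nonunits _ (h.ev_mem A) h.hx) (mul_mem_nonunits _ (h.ev_mem B) h.hy)

/-- `G(a, b) = 0 → G(x, y) ∈ 𝔪_P`. -/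
theorem ev_mem_nonunits (h : IsCentredAt P x y a b) {G : K[X][X]} (hG : ev0 a b G = 0) :
    ev x y G ∈ P.toValuationSubring.nonunits := by
  have := h.ev_sub_mem G
  rwa [hG, map_zero, sub_zero] at this

/-- `G(a, b) ≠ 0 → G(x, y)` is a unit of `O_P`. -/
theorem ev_unit (h : IsCentredAt P x y a b) {G : K[X][X]} (hG : ev0 a b G ≠ 0) :
    ev x y G ≠ 0 ∧ (ev x y G)⁻¹ ∈ P.toValuationSubring := by
  have h1 : ev x y G ∉ P.toValuationSubring.nonunits := by
    intro hmem
    have h2 : algebraMap K F (ev0 a b G) ∈ P.toValuationSubring.nonunits := by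
      have := sub_mem hmem (h.ev_sub_mem G)
      simpa using this
    rw [ValuationSubring.mem_nonunits_iff_or] at h2
    rcases h2 with h2 | h2
    · exact hG ((map_eq_zero _).mp h2)
    · apply h2
      rw [← map_inv₀]
      exact P.algebraMap_mem' _
  rw [ValuationSubring.mem_nonunits_iff_or] at h1
  exact ⟨fun h0 => h1 (Or.inl h0), by_contra fun hc => h1 (Or.inr hc)⟩

theorem ord_ev_unit (h : IsCentredAt P x y a b) {G : K[X][X]} (hG : ev0 a b G ≠ 0) :
    P.ord (ev x y G) = 0 := by
  have h1 := Lib.RR.ord_nonneg_of_mem P (h.ev_mem G)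
  have h2 := Lib.RR.ord_nonneg_of_mem P (h.ev_unit hG).2
  rw [P.ord_inv] at h2
  omega

end IsCentredAt

/-- Data of a relation `Ψ(x, y) = 0` for which `(a, b)` is a simple point. -/
structure IsSimplePoint (x y : F) (a b : K) (Ψ : K[X][X]) : Prop where
  rel : ev x y Ψ = 0
  zero : ev0 a b Ψ = 0
  simple : ev0 a b (derivative Ψ) ≠ 0

/-- Key step: if `G(a,b) = 0` then `T(x,y) G(x,y) = (x - a) G₁(x,y)` with `T(a,b) ≠ 0`. -/
theorem IsSimplePoint.exists_mul_eq {x y : F} {a b : K} {Ψ : K[X][X]}
    (hΨ : IsSimplePoint x y a b Ψ) {G : K[X][X]} (hG : ev0 a b G = 0) :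
    ∃ T G₁ : K[X][X], ev0 a b T ≠ 0 ∧
      ev x y T * ev x y G = (x - algebraMap K F a) * ev x y G₁ := by
  obtain ⟨A₀, B₀, h0⟩ := exists_decomp a b Ψ
  obtain ⟨A, B, h1⟩ := exists_decomp a b G
  rw [hΨ.zero, map_zero, map_zero, zero_add] at h0
  rw [hG, map_zero, map_zero, zero_add] at h1
  have hB₀ : ev0 a b B₀ ≠ 0 := by
    have hd : derivative Ψ = derivative A₀ * C (X - C a) + (derivative B₀ * (X - C (C b)) + B₀) := by
      conv_lhs => rw [h0]
      simp only [derivative_add, derivative_mul, derivative_C, derivative_sub, derivative_X,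
        mul_zero, add_zero, sub_zero, mul_one]
    have := hΨ.simple
    rw [hd] at this
    simpa using this
  have hrel : ev x y A₀ * (x - algebraMap K F a) + ev x y B₀ * (y - algebraMap K F b) = 0 := by
    have := hΨ.rel
    rw [h0] at this
    simpa using this
  refine ⟨B₀, B₀ * A - B * A₀, hB₀, ?_⟩
  conv_lhs => rw [h1]
  simp only [map_add, map_mul, map_sub, ev_C, ev_X, aeval_C, aeval_X]
  linear_combination (ev x y B) * hrel

/-- Every nonzero `G(x,y)` is `(x - a)^n` times a unit of the local ring at `(a, b)`. -/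
theorem IsSimplePoint.exists_pow_mul_eq {x y : F} {a b : K} {Ψ : K[X][X]}
    (hΨ : IsSimplePoint x y a b Ψ) {P : Place K F} (h : IsCentredAt P x y a b)
    (G : K[X][X]) (hG : ev x y G ≠ 0) :
    ∃ (n : ℕ) (S T : K[X][X]), ev0 a b S ≠ 0 ∧ ev0 a b T ≠ 0 ∧
      ev x y T * ev x y G = (x - algebraMap K F a) ^ n * ev x y S := by
  induction hk : (P.ord (ev x y G)).toNat using Nat.strong_induction_on generalizing G with
  | _ k ih =>
    by_cases hG0 : ev0 a b G = 0
    · obtain ⟨T₁, G₁, hT₁, hmul⟩ := hΨ.exists_mul_eq (x := x) (y := y) hG0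
      have hT₁u := h.ev_unit hT₁
      have hxa : x - algebraMap K F a ≠ 0 := by
        intro h0
        rw [h0, zero_mul] at hmul
        exact (mul_ne_zero hT₁u.1 hG) hmul
      have hG₁ : ev x y G₁ ≠ 0 := by
        intro h0
        rw [h0, mul_zero] at hmul
        exact (mul_ne_zero hT₁u.1 hG) hmul
      have hord : P.ord (ev x y G) = P.ord (x - algebraMap K F a) + P.ord (ev x y G₁) := by
        have := congrArg P.ord hmul
        rw [P.ord_mul hT₁u.1 hG, P.ord_mul hxa hG₁, h.ord_ev_unit hT₁, zero_add] at this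
        exact this
      have hpos : 0 < P.ord (x - algebraMap K F a) :=
        (S24.FF.ord_pos_iff_mem_nonunits P hxa).mpr h.hx
      have hnn : 0 ≤ P.ord (ev x y G₁) := Lib.RR.ord_nonneg_of_mem P (h.ev_mem G₁)
      have hlt : (P.ord (ev x y G₁)).toNat < k := by
        rw [← hk]
        omega
      obtain ⟨n, S, T₂, hS, hT₂, hmul₂⟩ := ih _ hlt G₁ hG₁ rfl
      refine ⟨n + 1, S, T₁ * T₂, hS, ?_, ?_⟩
      · rw [map_mul]; exact mul_ne_zero hT₁ hT₂
      · rw [map_mul, pow_succ]
        linear_combination (ev x y T₂) * hmul + (x - algebraMap K F a) * hmul₂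
    · exact ⟨0, G, 1, hG0, by simp, by simp⟩

/-- **Uniqueness** of the place centred at a simple point, when `F = K(x, y)`. -/
theorem IsCentredAt.le_of_isSimplePoint {x y : F} {a b : K} {Ψ : K[X][X]}
    (hΨ : IsSimplePoint x y a b Ψ)
    (hgen : ∀ f : F, ∃ G H : K[X][X], ev x y H ≠ 0 ∧ f * ev x y H = ev x y G)
    {P P' : Place K F} (h : IsCentredAt P x y a b) (h' : IsCentredAt P' x y a b) :
    P.toValuationSubring ≤ P'.toValuationSubring := by
  intro f hf
  rcases eq_or_ne f 0 with rfl | hf0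
  · exact zero_mem _
  obtain ⟨G, H, hH, hfH⟩ := hgen f
  have hG : ev x y G ≠ 0 := by rw [← hfH]; exact mul_ne_zero hf0 hH
  obtain ⟨n, S, T, hS, hT, hGeq⟩ := hΨ.exists_pow_mul_eq h G hG
  obtain ⟨m, S', T', hS', hT', hHeq⟩ := hΨ.exists_pow_mul_eq h H hH
  set t := x - algebraMap K F a with ht
  have hSu := h.ev_unit hS
  have hTu := h.ev_unit hT
  have hS'u := h.ev_unit hS'
  have hT'u := h.ev_unit hT'
  have key : f * (t ^ m * ev x y S' * ev x y T) = t ^ n * ev x y S * ev x y T' := by
    linear_combination (ev x y T * ev x y T') * hfH - f * ev x y T * hHeq + ev x y T' * hGeq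
  by_cases ht0 : t = 0
  · -- then `n = m = 0`
    have hn : n = 0 := by
      by_contra hn
      rw [ht0, zero_pow hn, zero_mul] at hGeq
      exact (mul_ne_zero hTu.1 hG) hGeq
    have hm : m = 0 := by
      by_contra hm
      rw [ht0, zero_pow hm, zero_mul] at hHeq
      exact (mul_ne_zero hT'u.1 hH) hHeq
    rw [hn, hm, pow_zero, one_mul, one_mul] at key
    have hf_eq : f = ev x y S * ev x y T' * ((ev x y S')⁻¹ * (ev x y T)⁻¹) := by
      rw [← mul_inv, ← div_eq_mul_inv, eq_div_iff (mul_ne_zero hS'u.1 hTu.1)]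
      linear_combination key
    rw [hf_eq]
    exact mul_mem (mul_mem (h'.ev_mem S) (h'.ev_mem T'))
      (mul_mem (h'.ev_unit hS').2 (h'.ev_unit hT).2)
  · have hpos : 0 < P.ord t := (S24.FF.ord_pos_iff_mem_nonunits P ht0).mpr h.hx
    have hord : P.ord f + m * P.ord t = n * P.ord t := by
      have := congrArg P.ord key
      rw [P.ord_mul hf0 (mul_ne_zero (mul_ne_zero (pow_ne_zero m ht0) hS'u.1) hTu.1),
        P.ord_mul (mul_ne_zero (pow_ne_zero m ht0) hS'u.1) hTu.1,
        P.ord_mul (pow_ne_zero m ht0) hS'u.1,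
        P.ord_mul (mul_ne_zero (pow_ne_zero n ht0) hSu.1) hT'u.1,
        P.ord_mul (pow_ne_zero n ht0) hSu.1,
        Lib.RR.ord_pow, Lib.RR.ord_pow, h.ord_ev_unit hS, h.ord_ev_unit hT, h.ord_ev_unit hS',
        h.ord_ev_unit hT'] at this
      linarith
    have hfnn : 0 ≤ P.ord f := Lib.RR.ord_nonneg_of_mem P hf
    have hmn : m ≤ n := by
      by_contra hcon
      have h1 : (n : ℤ) + 1 ≤ m := by exact_mod_cast Nat.lt_of_not_le hcon
      nlinarith
    obtain ⟨d, rfl⟩ := Nat.exists_eq_add_of_le hmn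
    have htm : t ^ m ≠ 0 := pow_ne_zero m ht0
    have hf_eq : f = t ^ d * ev x y S * ev x y T' * ((ev x y S')⁻¹ * (ev x y T)⁻¹) := by
      rw [← mul_inv, ← div_eq_mul_inv, eq_div_iff (mul_ne_zero hS'u.1 hTu.1)]
      rw [pow_add] at key
      apply mul_left_cancel₀ htm
      linear_combination key
    rw [hf_eq]
    have htmem : t ∈ P'.toValuationSubring := ValuationSubring.nonunits_subset h'.hx
    exact mul_mem (mul_mem (mul_mem (pow_mem htmem d) (h'.ev_mem S)) (h'.ev_mem T'))
      (mul_mem (h'.ev_unit hS').2 (h'.ev_unit hT).2)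

/-- **Uniqueness** of the place centred at a simple point, when `F = K(x, y)`. -/
theorem IsCentredAt.unique {x y : F} {a b : K} {Ψ : K[X][X]}
    (hΨ : IsSimplePoint x y a b Ψ)
    (hgen : ∀ f : F, ∃ G H : K[X][X], ev x y H ≠ 0 ∧ f * ev x y H = ev x y G)
    {P P' : Place K F} (h : IsCentredAt P x y a b) (h' : IsCentredAt P' x y a b) :
    P = P' :=
  Place.ext (le_antisymm (h.le_of_isSimplePoint hΨ hgen h') (h'.le_of_isSimplePoint hΨ hgen h))

/-! ## Existence -/

/-- `(a, b)` is a `K`-point of the plane model of `K(x, y)`: every polynomial relation between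
`x` and `y` vanishes at `(a, b)`. -/
def IsPointOf (x y : F) (a b : K) : Prop :=
  ∀ G : K[X][X], ev x y G = 0 → ev0 a b G = 0

/-- **Existence** of a place centred at a `K`-point of the plane model. -/
theorem exists_isCentredAt [IsAlgClosed K] {x y : F} {a b : K} (hx : Transcendental K x)
    [FiniteDimensional (IntermediateField.adjoin K {x}) F] (hpt : IsPointOf x y a b) :
    ∃ P : Place K F, IsCentredAt P x y a b := by
  classical
  set A : Subring F := (ev (K := K) x y).range with hA
  have hxA : x - algebraMap K F a ∈ A := ⟨C (X - C a), by simp⟩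
  have hyA : y - algebraMap K F b ∈ A := ⟨X - C (C b), by simp⟩
  set I : Ideal A := Ideal.span {⟨x - algebraMap K F a, hxA⟩, ⟨y - algebraMap K F b, hyA⟩} with hI
  have hI_ne : I ≠ ⊤ := by
    intro htop
    have h1 : (1 : A) ∈ I := by rw [htop]; trivial
    rw [hI, Ideal.mem_span_pair] at h1
    obtain ⟨⟨u, U, hU⟩, ⟨w, W, hW⟩, huw⟩ := h1
    have huw' : u * (x - algebraMap K F a) + w * (y - algebraMap K F b) = 1 :=
      congrArg Subtype.val huw
    have h2 : ev x y (U * C (X - C a) + W * (X - C (C b)) - 1) = 0 := by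
      simp only [map_add, map_mul, map_sub, map_one, ev_C, ev_X, aeval_C, aeval_X, hU, hW]
      rw [huw', sub_self]
    have h3 := hpt _ h2
    simp at h3
  obtain ⟨B, hAB, hIB⟩ := Ideal.image_subset_nonunits_valuationSubring I hI_ne
  have hxB : x - algebraMap K F a ∈ B.nonunits :=
    hIB ⟨⟨_, hxA⟩, Ideal.subset_span (by simp), rfl⟩
  have hyB : y - algebraMap K F b ∈ B.nonunits :=
    hIB ⟨⟨_, hyA⟩, Ideal.subset_span (by simp), rfl⟩
  have hK : ∀ c : K, algebraMap K F c ∈ B := fun c => hAB ⟨C (C c), by simp⟩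
  have hxa : x - algebraMap K F a ≠ 0 := by
    intro h0
    have h1 : aeval x (X - C a : K[X]) = 0 := by simpa using h0
    have h2 := (transcendental_iff.mp hx) _ h1
    exact X_sub_C_ne_zero a h2
  have hB : B ≠ ⊤ := by
    intro htop
    rw [ValuationSubring.mem_nonunits_iff_or] at hxB
    rcases hxB with h0 | h0
    · exact hxa h0
    · exact h0 (htop ▸ ValuationSubring.mem_top _)
  obtain ⟨P, hP⟩ := Lib.RR.H443.exists_place_eq B hK hB hx
  exact ⟨P, ⟨hP ▸ hxB, hP ▸ hyB⟩⟩

/-- If `Ψ` is monic in `Y`, `Ψ(x, y) = 0`, and `y` satisfies no relation over `K[x]` of smaller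
`Y`-degree, then every zero `(a, b)` of `Ψ` is a `K`-point of the plane model. -/
theorem isPointOf_of_monic {x y : F} {a b : K} {Ψ : K[X][X]} (hΨm : Ψ.Monic)
    (hΨ : ev x y Ψ = 0)
    (hmin : ∀ G : K[X][X], ev x y G = 0 → G.degree < Ψ.degree → G = 0)
    (hab : ev0 a b Ψ = 0) : IsPointOf x y a b := by
  intro G hG
  have h1 : G %ₘ Ψ + Ψ * (G /ₘ Ψ) = G := modByMonic_add_div G Ψ
  have h2 : ev x y (G %ₘ Ψ) = 0 := by
    have := congrArg (ev x y) h1
    rw [map_add, map_mul, hΨ, zero_mul, add_zero, hG] at this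
    exact this
  have h3 : G %ₘ Ψ = 0 := hmin _ h2 (degree_modByMonic_lt G hΨm)
  rw [h3, zero_add] at h1
  rw [← h1, map_mul, hab, zero_mul]

/-- The minimality hypothesis of `isPointOf_of_monic` from a degree bound: the `Y`-degree of `Ψ`
is at most the degree of the minimal polynomial of `y` over `K(x)`. -/
theorem eq_zero_of_degree_lt {x y : F} (hx : Transcendental K x) {Ψ : K[X][X]}
    (hdeg : Ψ.natDegree ≤ (minpoly (IntermediateField.adjoin K {x}) y).natDegree)
    (hy : IsIntegral (IntermediateField.adjoin K {x}) y)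
    (G : K[X][X]) (hG : ev x y G = 0) (hlt : G.degree < Ψ.degree) : G = 0 := by
  set φ : K[X] →+* IntermediateField.adjoin K {x} :=
    (aeval (IntermediateField.AdjoinSimple.gen K x) :
      K[X] →ₐ[K] IntermediateField.adjoin K {x}).toRingHom with hφ
  have hφ_inj : Function.Injective φ := by
    rw [injective_iff_map_eq_zero]
    intro g hg
    have h1 : aeval x g = 0 := by
      have := congrArg (algebraMap (IntermediateField.adjoin K {x}) F) hg
      simpa [hφ, ← aeval_algebraMap_apply] using this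
    exact (transcendental_iff.mp hx) g h1
  have hcomp : ((algebraMap (IntermediateField.adjoin K {x}) F).comp φ) =
      ((aeval x : K[X] →ₐ[K] F) : K[X] →+* F) := by
    ext g
    · simp [hφ]
    · simp [hφ]
  have h1 : aeval y (G.map φ) = 0 := by
    rw [aeval_def, eval₂_map, hcomp]
    exact hG
  by_contra hG0
  have hmap0 : G.map φ ≠ 0 := by
    rwa [Ne, Polynomial.map_eq_zero_iff hφ_inj]
  have h2 := minpoly.degree_le_of_ne_zero _ y hmap0 h1
  have h3 : (G.map φ).degree = G.degree := degree_map_eq_of_injective hφ_inj G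
  have hΨ0 : Ψ ≠ 0 := by
    intro h0
    rw [h0, degree_zero] at hlt
    exact not_lt_bot hlt
  have h4 : Ψ.degree ≤ (minpoly (IntermediateField.adjoin K {x}) y).degree := by
    rw [degree_eq_natDegree hΨ0, degree_eq_natDegree (minpoly.ne_zero hy)]
    exact_mod_cast hdeg
  rw [h3] at h2
  exact absurd (lt_of_lt_of_le hlt (h4.trans h2)) (lt_irrefl _)

/-! ## Generation -/

/-- Elements of `K[x, y]` are values of bivariate polynomials. -/
theorem exists_ev_eq_of_mem_adjoin {x y : F} {r : F} (hr : r ∈ Algebra.adjoin K ({x, y} : Set F)) :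
    ∃ G : K[X][X], ev x y G = r := by
  induction hr using Algebra.adjoin_induction with
  | mem z hz =>
    rcases hz with rfl | hz
    · exact ⟨C X, by simp⟩
    · rw [Set.mem_singleton_iff] at hz
      subst hz
      exact ⟨X, by simp⟩
  | algebraMap c => exact ⟨C (C c), by simp⟩
  | add u w _ _ hu hw =>
    obtain ⟨U, rfl⟩ := hu
    obtain ⟨W, rfl⟩ := hw
    exact ⟨U + W, map_add _ _ _⟩
  | mul u w _ _ hu hw =>
    obtain ⟨U, rfl⟩ := hu
    obtain ⟨W, rfl⟩ := hw
    exact ⟨U * W, map_mul _ _ _⟩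

/-- If `F = K(x, y)` then every element of `F` is a quotient `G(x,y) / H(x,y)`. -/
theorem exists_ev_of_adjoin_eq_top {x y : F}
    (htop : IntermediateField.adjoin K ({x, y} : Set F) = ⊤) (f : F) :
    ∃ G H : K[X][X], ev x y H ≠ 0 ∧ f * ev x y H = ev x y G := by
  have hf : f ∈ IntermediateField.adjoin K ({x, y} : Set F) := by rw [htop]; trivial
  obtain ⟨r, hr, s, hs, rfl⟩ := IntermediateField.mem_adjoin_iff_div.mp hf
  obtain ⟨G, rfl⟩ := exists_ev_eq_of_mem_adjoin hr
  obtain ⟨H, rfl⟩ := exists_ev_eq_of_mem_adjoin hs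
  by_cases h0 : ev x y H = 0
  · refine ⟨0, 1, by simp, ?_⟩
    rw [h0, div_zero, zero_mul, map_zero]
  · exact ⟨G, H, h0, div_mul_cancel₀ _ h0⟩

/-! ## Galois-fixedness -/

open scoped Pointwise in
/-- A semilinear automorphism fixing `x`, `y`, `a`, `b` maps places centred at `(a, b)` to places
centred at `(a, b)`. -/
theorem IsCentredAt.smul {P : Place K F} {x y : F} {a b : K} (h : IsCentredAt P x y a b)
    (g : SemilinearAut K F) (hgx : g • x = x) (hgy : g • y = y)
    (hga : SemilinearAut.baseAut g a = a) (hgb : SemilinearAut.baseAut g b = b) :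
    IsCentredAt (g • P) x y a b := by
  have key : ∀ (z : F), g • z = z → ∀ c : K, SemilinearAut.baseAut g c = c →
      z - algebraMap K F c ∈ P.toValuationSubring.nonunits →
      z - algebraMap K F c ∈ (g • P).toValuationSubring.nonunits := by
    intro z hz c hc hmem
    have hfix : g • (z - algebraMap K F c) = z - algebraMap K F c := by
      rw [smul_sub, hz, SemilinearAut.smul_algebraMap, hc]
    rw [ValuationSubring.mem_nonunits_iff_or] at hmem ⊢
    rcases hmem with h0 | h0
    · exact Or.inl h0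
    · refine Or.inr fun hcon => h0 ?_
      rw [SemilinearAut.smul_toValuationSubring,
        ValuationSubring.mem_pointwise_smul_iff_inv_smul_mem] at hcon
      have h2 : g⁻¹ • (z - algebraMap K F c)⁻¹ = (z - algebraMap K F c)⁻¹ := by
        rw [inv_smul_eq_iff, smul_inv'', hfix]
      rwa [h2] at hcon
  exact ⟨key x hgx a hga h.hx, key y hgy b hgb h.hy⟩

/-- **Galois-fixedness**: the unique place centred at a simple point `(a, b)` is fixed by every
semilinear automorphism fixing `x`, `y`, `a`, `b`. -/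
theorem IsCentredAt.smul_eq {x y : F} {a b : K} {Ψ : K[X][X]}
    (hΨ : IsSimplePoint x y a b Ψ)
    (hgen : ∀ f : F, ∃ G H : K[X][X], ev x y H ≠ 0 ∧ f * ev x y H = ev x y G)
    {P : Place K F} (h : IsCentredAt P x y a b)
    (g : SemilinearAut K F) (hgx : g • x = x) (hgy : g • y = y)
    (hga : SemilinearAut.baseAut g a = a) (hgb : SemilinearAut.baseAut g b = b) :
    g • P = P :=
  (h.smul g hgx hgy hga hgb).unique hΨ hgen h

/-- **Summary**: over an algebraically closed field `K`, for `F = K(x, y)` finite over `K(x)`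
(`x` transcendental), a simple zero `(a, b)` of a monic minimal relation `Ψ` is the centre of
exactly one place. -/
theorem existsUnique_isCentredAt [IsAlgClosed K] {x y : F} {a b : K} (hx : Transcendental K x)
    [FiniteDimensional (IntermediateField.adjoin K {x}) F]
    (htop : IntermediateField.adjoin K ({x, y} : Set F) = ⊤)
    {Ψ : K[X][X]} (hΨm : Ψ.Monic) (hΨ : ev x y Ψ = 0)
    (hmin : ∀ G : K[X][X], ev x y G = 0 → G.degree < Ψ.degree → G = 0)
    (hab : ev0 a b Ψ = 0) (hsimple : ev0 a b (derivative Ψ) ≠ 0) :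
    ∃! P : Place K F, IsCentredAt P x y a b := by
  obtain ⟨P, hP⟩ := exists_isCentredAt hx (isPointOf_of_monic hΨm hΨ hmin hab)
  exact ⟨P, hP, fun P' hP' =>
    hP'.unique ⟨hΨ, hab, hsimple⟩ (exists_ev_of_adjoin_eq_top htop) hP⟩

end Fermat.Agent.S15.H602
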