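import Fermat.Agent.S15.H602.Disjoint
import Fermat.Agent.S15.H542.ModSpec
import Fermat.Agent.S18.H84.ConstF

/-!
# S15 / MOD-A1 (helper602): every point of the plane model of `X₀(p)` lifts to a place

`placeOfModularPairStatement : H542.PlaceOfModularPairStatement` — for `(a, a') ∈ ℚ̄²` such that
every polynomial relation over `ℚ` between `j(q)` and `j(q^N)` vanishes at `(a, a')`, there is a
place `P` of `ℚ̄(X₀(N))` with `j(P) = a` and `j_N(P) = a'`.  (Valid for every `N ≥ 1`.)

Ingredients: `exists_isCentredAt` (Chevalley extension + every valuation ring of a function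
field is a place, `Lib.RR.H443.exists_place_eq`), `ev0_eq_zero_of_rational` (linear
disjointness), transcendence of `j` and finiteness of `F / ℚ̄(j)` (S24, via `S18.H84`).
-/

set_option autoImplicit false

noncomputable section

namespace Fermat.Agent.S15.H602

open Polynomial AlgebraicCurve ModularCurve HahnSeries Fermat.Agent.S15.H542

section Coe

variable {K E : Type*} [Field K] [Field E] [Algebra K E] (M : IntermediateField K E)

/-- `G(x, y)` computed in an intermediate field or in the ambient field. -/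
theorem coe_ev (x y : M) (G : K[X][X]) : ((ev x y G : M) : E) = ev (x : E) (y : E) G := by
  have h : (M.val : M →+* E).comp (ev x y) = ev (K := K) (x : E) (y : E) := by
    refine ringHom_ext₂ (fun c => ?_) ?_ ?_
    · simp
    · simp
    · simp
  exact congrArg (fun f : K[X][X] →+* E => f G) h

end Coe

section MvBridge

variable {A : Type*} [CommRing A] [Algebra ℚ A]

/-- evaluation of `MvPolynomial (Fin 2) ℚ` versus evaluation of `ℚ[X][Y]` -/
theorem mvAeval_equivMvPolynomial (u v : A) (G₀ : ℚ[X][X]) :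
    MvPolynomial.aeval ![u, v] (Bivariate.equivMvPolynomial ℚ G₀) =
      eval₂ ((aeval u : ℚ[X] →ₐ[ℚ] A) : ℚ[X] →+* A) v G₀ := by
  have h : (MvPolynomial.aeval ![u, v] : MvPolynomial (Fin 2) ℚ →ₐ[ℚ] A).toRingHom.comp
      (Bivariate.equivMvPolynomial ℚ).toAlgHom.toRingHom =
      eval₂RingHom ((aeval u : ℚ[X] →ₐ[ℚ] A) : ℚ[X] →+* A) v := by
    refine ringHom_ext₂ (fun c => ?_) ?_ ?_
    · simp
    · simp
    · simp
  exact congrArg (fun f : ℚ[X][X] →+* A => f G₀) h

end MvBridge

/-- An element of `F` with a nonzero `q`-coefficient in degree `k ≠ 0` differs from every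
constant. -/
theorem sub_algebraMap_ne_zero {N : ℕ} (u : modularFunctionFieldBar N) (k : ℤ) (hk : k ≠ 0)
    (hu : (u : LaurentSeries (AlgebraicClosure ℚ)).coeff k ≠ 0) (c : AlgebraicClosure ℚ) :
    u - algebraMap (AlgebraicClosure ℚ) (modularFunctionFieldBar N) c ≠ 0 := by
  intro h0
  have h1 : (u : LaurentSeries (AlgebraicClosure ℚ)) =
      algebraMap (AlgebraicClosure ℚ) (LaurentSeries (AlgebraicClosure ℚ)) c := by
    have := congrArg (Subtype.val) (sub_eq_zero.mp h0)
    simpa using this
  rw [h1, algebraMap_laurentSeries_eq_single, HahnSeries.coeff_single_of_ne hk] at hu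
  exact hu rfl

theorem coeff_jBar (N : ℕ) [NeZero N] :
    ((jBar N : modularFunctionFieldBar N) : LaurentSeries (AlgebraicClosure ℚ)).coeff (-1) = 1 := by
  show (coeffEmb (AlgebraicClosure ℚ) jq).coeff (-1) = 1
  rw [coeffEmb_coeff, coeff_jq_neg_one, map_one]

theorem coeff_jNBar (N : ℕ) [NeZero N] :
    ((jNBar N : modularFunctionFieldBar N) : LaurentSeries (AlgebraicClosure ℚ)).coeff
      ((N : ℤ) * (-1)) = 1 := by
  show (coeffEmb (AlgebraicClosure ℚ) (qExpand ℚ N jq)).coeff ((N : ℤ) * (-1)) = 1
  rw [coeffEmb_coeff, qExpand_coeff_mul, coeff_jq_neg_one, map_one]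

theorem jBar_sub_ne_zero (N : ℕ) [NeZero N] (c : AlgebraicClosure ℚ) :
    jBar N - algebraMap (AlgebraicClosure ℚ) (modularFunctionFieldBar N) c ≠ 0 :=
  sub_algebraMap_ne_zero _ (-1) (by norm_num) (by rw [coeff_jBar]; exact one_ne_zero) c

theorem jNBar_sub_ne_zero (N : ℕ) [NeZero N] (c : AlgebraicClosure ℚ) :
    jNBar N - algebraMap (AlgebraicClosure ℚ) (modularFunctionFieldBar N) c ≠ 0 :=
  sub_algebraMap_ne_zero _ ((N : ℤ) * (-1))
    (by simpa using NeZero.ne N) (by rw [coeff_jNBar]; exact one_ne_zero) c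

theorem jBar_not_mem_range (N : ℕ) [NeZero N] :
    jBar N ∉ (algebraMap (AlgebraicClosure ℚ) (modularFunctionFieldBar N)).range := by
  rintro ⟨c, hc⟩
  exact jBar_sub_ne_zero N c (by rw [hc, sub_self])

/-- `IsModularPair` gives a point of the plane model over `ℚ̄` in the sense of `IsPointOf`. -/
theorem isPointOf_of_isModularPair (N : ℕ) [NeZero N] {a a' : AlgebraicClosure ℚ}
    (h : IsModularPair N a a') : IsPointOf (jBar N) (jNBar N) a a' := by
  intro G hG
  refine ev0_eq_zero_of_rational jq (qExpand ℚ N jq) a a' (fun G₀ hG₀ => ?_) G ?_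
  · rw [ev0_bc_eq, ← mvAeval_equivMvPolynomial]
    apply h
    rw [mvAeval_equivMvPolynomial]
    exact hG₀
  · have := congrArg (Subtype.val) hG
    rw [coe_ev] at this
    exact this

/-- **MOD-A1.**  Every point of the plane model lifts to a place (any level `N ≥ 1`). -/
theorem exists_place_of_isModularPair (N : ℕ) [NeZero N] {a a' : AlgebraicClosure ℚ}
    (h : IsModularPair N a a') :
    ∃ P : Place (AlgebraicClosure ℚ) (modularFunctionFieldBar N),
      HasValueAt P (jBar N) a ∧ HasValueAt P (jNBar N) a' := by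
  obtain ⟨hT, hFD⟩ :=
    S18.H84.finiteDimensional_adjoin_modularFunctionFieldBar N (jBar N) (jBar_not_mem_range N)
  obtain ⟨P, hP⟩ := exists_isCentredAt hT (isPointOf_of_isModularPair N h)
  exact ⟨P, (S24.FF.ord_pos_iff_mem_nonunits P (jBar_sub_ne_zero N a)).mpr hP.hx,
    (S24.FF.ord_pos_iff_mem_nonunits P (jNBar_sub_ne_zero N a')).mpr hP.hy⟩

/-- **MOD-A1** in the exact shape of the interface. -/
theorem placeOfModularPairStatement : PlaceOfModularPairStatement :=
  fun p _ _ _ _ h => exists_place_of_isModularPair p h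

end Fermat.Agent.S15.H602
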