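import Fermat.Agent.S15.H602.PlaceOfPoint
import Fermat.Prelude.Def_ModularCurve_ArithmeticGalois

/-!
# Galois-fixed places of `ℚ̄(X₀(N))` over rational simple points
(helper602, row S15, piece FFu)

Specialisation of `PlaceOfPoint.lean` to `F = laurentBaseChange L F₀` (`L/ℚ` any field, e.g.
`ℚ̄`; `F₀ ⊆ ℚ((q))`; in particular `F = modularFunctionFieldBar N`) with the coefficientwise
Galois action `arithmeticGalois F₀ σ`:

* `arithmeticGalois_smul_eq_self` : elements of `F` with rational `q`-expansion are fixed;
* `galois_smul_eq_of_isCentredAt` : the place centred at a simple point `(a, b)`, `a b ∈ ℚ`, of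
  the plane model with coordinates `x, y` having rational `q`-expansions is Galois-fixed.
-/

set_option autoImplicit false

noncomputable section

namespace Fermat.Agent.S15.H602

open Polynomial AlgebraicCurve ModularCurve HahnSeries

variable {L : Type*} [Field L] [Algebra ℚ L] (F₀ : IntermediateField ℚ (LaurentSeries ℚ))

/-- An element of `F` whose `q`-expansion has rational coefficients is fixed by the arithmetic
Galois action. -/
theorem arithmeticGalois_smul_eq_self (σ : L ≃ₐ[ℚ] L) (x : laurentBaseChange L F₀)
    (x₀ : LaurentSeries ℚ) (hx : (x : LaurentSeries L) = coeffMap (algebraMap ℚ L) x₀) :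
    arithmeticGalois F₀ σ • x = x := by
  apply Subtype.ext
  rw [coe_arithmeticGalois_smul, hx, coeffMap_coeffMap]
  exact coeffMap_congr (RingHom.ext fun c => by simp) x₀

/-- **Galois-fixedness of the moduli place.**  Let `x, y ∈ F` have rational `q`-expansions,
`F = L(x, y)`, and let `(a, b) ∈ ℚ²` be a simple point of a relation `Ψ(x, y) = 0`.  Then the
place of `F` centred at `(a, b)` is fixed by `arithmeticGalois F₀ σ` for every `σ`. -/
theorem galois_smul_eq_of_isCentredAt {x y : laurentBaseChange L F₀}
    {x₀ y₀ : LaurentSeries ℚ}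
    (hx : (x : LaurentSeries L) = coeffMap (algebraMap ℚ L) x₀)
    (hy : (y : LaurentSeries L) = coeffMap (algebraMap ℚ L) y₀)
    {a b : ℚ} {Ψ : L[X][X]}
    (hΨ : IsSimplePoint x y (algebraMap ℚ L a) (algebraMap ℚ L b) Ψ)
    (hgen : ∀ f : laurentBaseChange L F₀,
      ∃ G H : L[X][X], ev x y H ≠ 0 ∧ f * ev x y H = ev x y G)
    {P : Place L (laurentBaseChange L F₀)}
    (h : IsCentredAt P x y (algebraMap ℚ L a) (algebraMap ℚ L b)) (σ : L ≃ₐ[ℚ] L) :
    arithmeticGalois F₀ σ • P = P :=
  h.smul_eq hΨ hgen (arithmeticGalois F₀ σ)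
    (arithmeticGalois_smul_eq_self F₀ σ x x₀ hx)
    (arithmeticGalois_smul_eq_self F₀ σ y y₀ hy)
    (by simp) (by simp)

/-! ## The class of a difference of two places -/

section PtClass

variable {K F : Type*} [Field K] [Field F] [Algebra K F]

/-- the divisor `P - P'` has degree `0` when `deg P = deg P'` -/
theorem single_sub_single_mem_degZero {P P' : Place K F} (hdeg : P.deg = P'.deg) :
    (Finsupp.single P 1 - Finsupp.single P' 1 : Divisor K F) ∈
      Divisor.degZero (K := K) (F := F) := by
  rw [Divisor.mem_degZero, map_sub, Divisor.degree_single, Divisor.degree_single, hdeg, sub_self]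

/-- the class `cl(P - P') ∈ Pic⁰` of two places of the same degree -/
def ptClass (P P' : Place K F) (hdeg : P.deg = P'.deg) : Pic0 K F :=
  Pic0.mk ⟨Finsupp.single P 1 - Finsupp.single P' 1, single_sub_single_mem_degZero hdeg⟩

theorem smul_ptClass (g : SemilinearAut K F) (P P' : Place K F) (hdeg : P.deg = P'.deg) :
    g • ptClass P P' hdeg = ptClass (g • P) (g • P')
      (by rw [SemilinearAut.deg_smul, SemilinearAut.deg_smul, hdeg]) := by
  unfold ptClass
  rw [SemilinearAut.pic0_smul_mk]
  refine congrArg Pic0.mk (Subtype.ext ?_)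
  rw [SemilinearAut.coe_degZeroSMulHom]
  show g • (Finsupp.single P 1 - Finsupp.single P' 1 : Divisor K F) = _
  rw [smul_sub, SemilinearAut.smul_single, SemilinearAut.smul_single]

theorem smul_ptClass_eq_self (g : SemilinearAut K F) {P P' : Place K F} (hdeg : P.deg = P'.deg)
    (hP : g • P = P) (hP' : g • P' = P') : g • ptClass P P' hdeg = ptClass P P' hdeg := by
  rw [smul_ptClass]
  congr 1

end PtClass

/-- the class `cl(P - P')` of two Galois-fixed places is Galois-fixed -/
theorem galois_smul_ptClass_eq_self (σ : L ≃ₐ[ℚ] L) {P P' : Place L (laurentBaseChange L F₀)}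
    (hdeg : P.deg = P'.deg) (hP : arithmeticGalois F₀ σ • P = P)
    (hP' : arithmeticGalois F₀ σ • P' = P') :
    σ • ptClass P P' hdeg = ptClass P P' hdeg := by
  rw [galois_smul_pic0_def]
  exact smul_ptClass_eq_self _ hdeg hP hP'

end Fermat.Agent.S15.H602
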