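import Fermat.Agent.S15.H602.PlaceOfPoint
import Fermat.Prelude.Def_ModularCurve_LaurentCoeff

/-!
# Relations over `L` between rational `q`-series come from relations over `ℚ`
(helper602, row S15, piece MOD-A1, part 1)

`L/ℚ` a field, `x₀ y₀ ∈ ℚ((q))`.  If `G ∈ L[X][Y]` satisfies `G(x₀, y₀) = 0` in `L((q))` then `G`
is an `L`-linear combination of polynomials `G_i ∈ ℚ[X][Y]` with `G_i(x₀, y₀) = 0` in `ℚ((q))`
(linear disjointness of `ℚ((q))` and `L` over `ℚ` inside `L((q))`).  Consequently:

* `ev0_eq_zero_of_rational` : if every relation over `ℚ` vanishes at `(a, a') ∈ L²`, so does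
  every relation over `L`.
-/

set_option autoImplicit false

noncomputable section

namespace Fermat.Agent.S15.H602

open Polynomial ModularCurve

section Ext

variable {K S : Type*} [Field K] [Semiring S]

/-- Extensionality for ring homomorphisms out of `K[X][Y]`. -/
theorem ringHom_ext₂ {f g : K[X][X] →+* S} (hCC : ∀ c : K, f (C (C c)) = g (C (C c)))
    (hCX : f (C X) = g (C X)) (hY : f X = g X) : f = g := by
  refine Polynomial.ringHom_ext (fun p => ?_) hY
  have : f.comp C = g.comp C := Polynomial.ringHom_ext hCC hCX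
  exact congrArg (fun h : K[X] →+* S => h p) this

end Ext

variable {L : Type*} [Field L] [Algebra ℚ L]

/-- base change `ℚ[X][Y] → L[X][Y]` -/
def bc (L : Type*) [Field L] [Algebra ℚ L] : ℚ[X][X] →+* L[X][X] :=
  mapRingHom (mapRingHom (algebraMap ℚ L))

@[simp] theorem bc_C_C (r : ℚ) : bc L (C (C r)) = C (C (algebraMap ℚ L r)) := by simp [bc]

@[simp] theorem bc_C_X : bc L (C X) = C X := by simp [bc]

@[simp] theorem bc_X : bc L (X : ℚ[X][X]) = X := by simp [bc]

theorem bc_monomial_monomial (n m : ℕ) (r : ℚ) :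
    bc L (monomial n (monomial m r)) = monomial n (monomial m (algebraMap ℚ L r)) := by
  simp [bc]

/-- `G(x₀, y₀)` commutes with base change of the coefficients. -/
theorem ev_bc (x₀ y₀ : LaurentSeries ℚ) (G₀ : ℚ[X][X]) :
    ev (K := L) (coeffEmb L x₀) (coeffEmb L y₀) (bc L G₀) = coeffEmb L (ev (K := ℚ) x₀ y₀ G₀) := by
  have h : (ev (K := L) (coeffEmb L x₀) (coeffEmb L y₀)).comp (bc L) =
      (coeffEmb L).comp (ev (K := ℚ) x₀ y₀) := by
    refine ringHom_ext₂ (fun c => ?_) ?_ ?_
    · simp only [RingHom.comp_apply, bc_C_C, ev_C, aeval_C]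
      rw [algebraMap_laurentSeries_eq_single, algebraMap_laurentSeries_eq_single]
      rw [coeffEmb, coeffMap_single]
    · simp
    · simp
  exact congrArg (fun f : ℚ[X][X] →+* LaurentSeries L => f G₀) h

/-- `G(a, a')` of a base-changed polynomial, through `ev0`. -/
theorem ev0_bc_eq (a a' : L) (G₀ : ℚ[X][X]) :
    ev0 a a' (bc L G₀) =
      eval₂ ((aeval a : ℚ[X] →ₐ[ℚ] L) : ℚ[X] →+* L) a' G₀ := by
  have h : (ev0 a a').comp (bc L) =
      eval₂RingHom ((aeval a : ℚ[X] →ₐ[ℚ] L) : ℚ[X] →+* L) a' := by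
    refine ringHom_ext₂ (fun c => ?_) ?_ ?_
    · simp
    · simp
    · simp
  exact congrArg (fun f : ℚ[X][X] →+* L => f G₀) h

/-- Every `G ∈ L[X][Y]` is a combination `∑ b_i · G_i` with `G_i ∈ ℚ[X][Y]`, for any basis `b` of
`L` over `ℚ`. -/
theorem exists_decomp_basis {ι : Type*} (b : Module.Basis ι ℚ L) (G : L[X][X]) :
    ∃ D : ι →₀ ℚ[X][X], G = D.sum fun i g => C (C (b i)) * bc L g := by
  classical
  induction G using Polynomial.induction_on' with
  | add p q hp hq =>
    obtain ⟨Dp, hDp⟩ := hp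
    obtain ⟨Dq, hDq⟩ := hq
    refine ⟨Dp + Dq, ?_⟩
    rw [Finsupp.sum_add_index' (fun i => by simp) (fun i g₁ g₂ => by rw [map_add, mul_add]),
      ← hDp, ← hDq]
  | monomial n g =>
    induction g using Polynomial.induction_on' with
    | add p q hp hq =>
      obtain ⟨Dp, hDp⟩ := hp
      obtain ⟨Dq, hDq⟩ := hq
      refine ⟨Dp + Dq, ?_⟩
      rw [Finsupp.sum_add_index' (fun i => by simp) (fun i g₁ g₂ => by rw [map_add, mul_add]),
        ← hDp, ← hDq, map_add]
    | monomial m c =>
      refine ⟨(b.repr c).mapRange (fun r => monomial n (monomial m r)) (by simp), ?_⟩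
      rw [Finsupp.sum_mapRange_index (fun i => by simp)]
      have hc : c = (b.repr c).sum fun i r => r • b i := (b.linearCombination_repr c).symm
      conv_lhs => rw [hc]
      rw [Finsupp.sum, Finsupp.sum]
      simp only [map_sum]
      refine Finset.sum_congr rfl fun i _ => ?_
      rw [bc_monomial_monomial, C_mul_monomial, C_mul_monomial, Algebra.smul_def, mul_comm]

/-- The coefficients of `(∑ b_i · G_i)(x₀, y₀)`. -/
theorem coeff_ev_sum {ι : Type*} (b : ι → L) (D : ι →₀ ℚ[X][X]) (x₀ y₀ : LaurentSeries ℚ)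
    (k : ℤ) :
    (ev (K := L) (coeffEmb L x₀) (coeffEmb L y₀)
      (D.sum fun i g => C (C (b i)) * bc L g)).coeff k =
      D.sum fun i g => ((ev (K := ℚ) x₀ y₀ g).coeff k) • b i := by
  rw [Finsupp.sum, Finsupp.sum, map_sum, HahnSeries.coeff_sum]
  refine Finset.sum_congr rfl fun i _ => ?_
  rw [map_mul, ev_bc, ev_C, aeval_C, algebraMap_laurentSeries_eq_single,
    HahnSeries.coeff_single_mul, sub_zero, coeffEmb_coeff, Algebra.smul_def, mul_comm]

/-- **Linear disjointness.**  If every relation over `ℚ` between the rational `q`-series `x₀`, `y₀`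
vanishes at `(a, a') ∈ L²`, then so does every relation over `L` between `x₀`, `y₀` (viewed in
`L((q))`). -/
theorem ev0_eq_zero_of_rational (x₀ y₀ : LaurentSeries ℚ) (a a' : L)
    (h₀ : ∀ G₀ : ℚ[X][X], ev (K := ℚ) x₀ y₀ G₀ = 0 → ev0 a a' (bc L G₀) = 0)
    (G : L[X][X]) (hG : ev (K := L) (coeffEmb L x₀) (coeffEmb L y₀) G = 0) :
    ev0 a a' G = 0 := by
  classical
  set b := Module.Free.chooseBasis ℚ L with hb
  obtain ⟨D, hD⟩ := exists_decomp_basis b G
  have hzero : ∀ i ∈ D.support, ev (K := ℚ) x₀ y₀ (D i) = 0 := by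
    intro i hi
    ext k
    have h1 := congrArg (fun f : LaurentSeries L => f.coeff k) hG
    simp only [HahnSeries.coeff_zero] at h1
    rw [hD, coeff_ev_sum] at h1
    have hli := b.linearIndependent
    rw [linearIndependent_iff'] at hli
    have := hli D.support (fun i => (ev (K := ℚ) x₀ y₀ (D i)).coeff k) h1 i hi
    rw [HahnSeries.coeff_zero]
    exact this
  rw [hD, Finsupp.sum, map_sum]
  refine Finset.sum_eq_zero fun i hi => ?_
  rw [map_mul, h₀ (D i) (hzero i hi), mul_zero]

end Fermat.Agent.S15.H602
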