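import Fermat.Agent.S15.H602.IdentFinal
import Fermat.Agent.S15.H542.GeoDisc
import Fermat.Agent.S15.H962.GeoProp

/-!
# S15, node GEO: CLOSED (helper602, assembly of helper542's DISC, helper962's PROPAGATION and
IDENT at level `p`, helper182's RED and helper602's IDENT at the levels `2 p`, `3 p`)

* `geoStatement602 p hp hp5 : Core.GeoStatement p` for every prime `p > 5`;
* `geoStatement_all602` : the hypothesis `hGeo` of `H975.S15_of_geo_sel`, verbatim.
-/

set_option autoImplicit false

noncomputable section

namespace Fermat.Agent.S15.H602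

/-- **The node GEO** for every prime `p > 5`. -/
theorem geoStatement602 (p : ℕ) [NeZero p] (hp : p.Prime) (hp5 : 5 < p) :
    Fermat.Agent.S15.Core.GeoStatement p :=
  Fermat.Agent.S15.H542.geoStatement_of_pieces p hp hp5 (Fermat.Agent.S15.H962.propagation p)
    (spStatement602 p hp hp5)

/-- **The node GEO**, in the form consumed by `H975.S15_of_geo_sel`. -/
theorem geoStatement_all602 :
    ∀ (p : ℕ) [NeZero p], p.Prime → p ∉ ({2, 3, 5, 7, 13} : Finset ℕ) →
      Fermat.Agent.S15.Core.GeoStatement p := by
  intro p _ hp hp'
  refine geoStatement602 p hp ?_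
  have h2 : p ≠ 2 := fun h => hp' (by simp [h])
  have h3 : p ≠ 3 := fun h => hp' (by simp [h])
  have h5 : p ≠ 5 := fun h => hp' (by simp [h])
  have h4 : p ≠ 4 := fun h => by rw [h] at hp; exact absurd hp (by decide)
  have := hp.two_le
  omega

end Fermat.Agent.S15.H602

end
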