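import Fermat.Agent.S15.H602.IdentFinal
import Fermat.Agent.S15.H542.GeoDiscSub
import Fermat.Agent.S15.H962.GeoProp

/-!
# Row S12, node GEO in SUBGROUP form: CLOSED (helper602, assembly)

`geoSub602 p hp hp5 : S12.H111.GeoSubStatement p` and
`geoPartsSub602 p hp hp5 : S12.H291.GeoPartsSubStatement p` for every prime `p > 5`
(helper542's `geoSub_of_pieces`, helper962's `propagation`, `spStatement602`).
-/

set_option autoImplicit false

noncomputable section

namespace Fermat.Agent.S15.H602

theorem geoPartsSub602 (p : ℕ) [NeZero p] (hp : p.Prime) (hp5 : 5 < p) :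
    Fermat.Agent.S12.H291.GeoPartsSubStatement p :=
  Fermat.Agent.S15.H542.geoPartsSub_of_pieces p hp hp5 (Fermat.Agent.S15.H962.propagation p)
    (spStatement602 p hp hp5)

theorem geoSub602 (p : ℕ) [NeZero p] (hp : p.Prime) (hp5 : 5 < p) :
    Fermat.Agent.S12.H111.GeoSubStatement p :=
  Fermat.Agent.S15.H542.geoSub_of_pieces p hp hp5 (Fermat.Agent.S15.H962.propagation p)
    (spStatement602 p hp hp5)

end Fermat.Agent.S15.H602

end
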