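import Fermat.Agent.S15.H602.IdentCore
import Fermat.Agent.S15.H722.HasValAlg
import Fermat.Prelude.Def_AlgebraicCurve_Correspondence

/-!
# S15 / GEO-PARTS (b) IDENT (helper602): the abstract identification theorem

`Φ : RedCore K F k Fk` a place reduction on a function field `F`, `X` a coordinate at infinity,
`ι : F₀ → F` an integral embedding of function fields, `u` an integral function with poles only at
poles of `x`, `z` an integral function reducing to `1`, `T` a "type" of residues.

`mapDomain_pullback_eq602` : if the poles of `z` over the place `P_c` of `F₀` are exactly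
`ι^* P_c`, of type `T`, the other poles of `z` are not of type `T`, the zeros and poles of `z` are
near the cusps, and `z` vanishes on `ι^* P` with type `T`, then `r_* ι^* P = r_* ι^* P_c`.
-/

set_option autoImplicit false

noncomputable section

open AlgebraicCurve

namespace Fermat.Agent.S15.H602

open Fermat.Agent.S15.H722 Fermat.Agent.Lib.RR

section Transfer

variable {K F F' : Type*} [Field K] [Field F] [Field F'] [Algebra K F] [Algebra K F']

theorem ramificationIndexAlong_pos602 (φ : F →ₐ[K] F') (hφ : φ.toRingHom.IsIntegral)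
    (w : Place K F') : 0 < w.ramificationIndexAlong φ := by
  letI := algebraAlong φ
  haveI := isScalarTower_along φ
  haveI := isIntegral_along φ hφ
  exact w.ramificationIndex_pos (F := F)

/-- Values transfer along an embedding of function fields. -/
theorem hasVal_map_iff602 (φ : F →ₐ[K] F') (hφ : φ.toRingHom.IsIntegral) (w : Place K F')
    (f : F) (c : K) : HasVal w (φ f) c ↔ HasVal (w.restrictAlong φ hφ) f c := by
  have hsub : φ f - algebraMap K F' c = φ (f - algebraMap K F c) := by
    rw [map_sub, AlgHom.commutes]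
  have hord := Place.ord_restrictAlong φ hφ w (f - algebraMap K F c)
  have he := ramificationIndexAlong_pos602 φ hφ w
  have he' : (0 : ℤ) < (w.ramificationIndexAlong φ : ℤ) := by exact_mod_cast he
  unfold HasVal
  rw [hsub, hord]
  constructor
  · rintro (h | h)
    · left
      exact (map_eq_zero φ).mp h
    · right
      exact (mul_pos_iff_of_pos_left he').mp h
  · rintro (h | h)
    · left
      rw [h, map_zero]
    · right
      exact mul_pos he' h

end Transfer

section Main

variable {K F₀ F k Fk : Type*} [Field K] [Field F₀] [Field F] [Algebra K F₀] [Algebra K F]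
  [Field k] [Field Fk] [Algebra k Fk]
variable {Φ : RedCore K F k Fk} (X : InfCoord Φ) [HasPrincipalDivisors K F]

/-- The type of a place near the cusps: the residue of the value of `u` satisfies `T`. -/
def HasType602 (u : Φ.O) (T : k → Prop) (W : Place K F) : Prop :=
  ∃ (β : K) (hβ : β ∈ Φ.A), HasVal W (u : F) β ∧ T (Φ.res ⟨β, hβ⟩)

theorem HasType602.not_of_not {u : Φ.O} {T : k → Prop} {W : Place K F}
    (h : HasType602 u (fun c => ¬ T c) W) : ¬ HasType602 u T W := by
  rintro ⟨β, hβ, hv, hT⟩
  obtain ⟨β', hβ', hv', hT'⟩ := h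
  have := hv.unique hv'
  subst this
  exact hT' hT

/-- **IDENT, abstract form.** -/
theorem mapDomain_pullback_eq602
    (hdeg1 : ∀ v : Place K F, v.deg = 1) (hr : ∀ P, (Φ.r P).deg = P.deg)
    (ι : F₀ →ₐ[K] F) (hι : ι.toRingHom.IsIntegral) (hFI : FundamentalIdentityAlong K ι hι)
    {u : Φ.O} (hu : ∀ P : Place K F, P.ord (u : F) < 0 → P.ord (X.x : F) < 0)
    (z : Φ.O) (hz : Φ.ρ z = 1) (T : k → Prop)
    (P Pc : Place K F₀) (hPdeg : P.deg = Pc.deg)
    (h1 : ∀ W : Place K F, W.ord (z : F) ≠ 0 → NearCusp602 X W)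
    (h2 : ∀ W : Place K F, W.restrictAlong ι hι = Pc →
      W.ord (z : F) = -(W.ramificationIndexAlong ι : ℤ) ∧ HasType602 u T W)
    (h3 : ∀ W : Place K F, W.ord (z : F) < 0 → W.restrictAlong ι hι ≠ Pc →
      HasType602 u (fun c => ¬ T c) W)
    (h4 : ∀ W : Place K F, W.restrictAlong ι hι = P →
      (W.ramificationIndexAlong ι : ℤ) ≤ W.ord (z : F) ∧ HasType602 u T W) :
    Finsupp.mapDomain Φ.r (Divisor.pullbackAlong ι hι (Finsupp.single P 1)) =
      Finsupp.mapDomain Φ.r (Divisor.pullbackAlong ι hι (Finsupp.single Pc 1)) := by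
  classical
  have hz0 : Φ.ρ z ≠ 0 := by rw [hz]; exact one_ne_zero
  have hzne : (z : F) ≠ 0 := Φ.coe_ne_zero hz0
  obtain ⟨D, hD, -⟩ := HasPrincipalDivisors.exists_divisor (K := K) (z : F) hzne
  have hDr : Finsupp.mapDomain Φ.r D = 0 := by
    ext Q
    rw [Φ.red z hz0 D hD Q, hz, Q.ord_one, Finsupp.zero_apply]
  have he : ∀ W : Place K F, (0 : ℤ) < (W.ramificationIndexAlong ι : ℤ) := fun W => by
    exact_mod_cast ramificationIndexAlong_pos602 ι hι W
  refine mapDomain_eq_of_parts602 Φ.r (fun v => (v.deg : ℤ))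
    (fun v => by rw [hdeg1 v]; norm_num) ?_ D hDr
    (fun W => NearCusp602 X W ∧ HasType602 u T W) ?_ _ _ ?_ ?_ ?_
  · -- `r_*` detects the degree
    intro E hE
    have := wdeg602_mapDomain' Φ.r (fun v : Place K F => (v.deg : ℤ))
      (fun v : Place k Fk => (v.deg : ℤ)) (fun a => by rw [hr a]) E
    rw [← this, hE, map_zero]
  · -- saturation
    rintro W W' hW hW' hrW ⟨hnc, β, hβ, hv, hT⟩
    rw [hD] at hW hW'
    have hnc' := h1 W' hW'
    refine ⟨hnc', ?_⟩
    have hreg := ord_nonneg_of_nearCusp602 X hu hnc'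
    obtain ⟨β', hv'⟩ := exists_hasVal W' (hdeg1 W') hreg
    obtain ⟨hb, hb', hres⟩ := res_eq_of_r_eq602 X hu hnc hnc' hrW hv hv'
    exact ⟨β', hb', hv', by rw [← hres]; exact hT⟩
  · -- `E₀`
    intro W
    rw [Divisor.pullbackAlong_apply, hD]
    constructor
    · rintro ⟨-, hS⟩ hneg
      by_cases hWc : W.restrictAlong ι hι = Pc
      · rw [hWc, Finsupp.single_eq_same, (h2 W hWc).1]; ring
      · exact absurd hS (h3 W hneg hWc).not_of_not
    · intro hnot
      by_cases hWc : W.restrictAlong ι hι = Pc
      · exfalso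
        obtain ⟨h21, h22⟩ := h2 W hWc
        have hlt : W.ord (z : F) < 0 := by have := he W; omega
        exact hnot ⟨⟨h1 W hlt.ne, h22⟩, hlt⟩
      · rw [Finsupp.single_eq_of_ne hWc, mul_zero]
  · -- `E₁`
    intro W
    rw [Divisor.pullbackAlong_apply, hD]
    by_cases hWP : W.restrictAlong ι hι = P
    · rw [hWP, Finsupp.single_eq_same, mul_one]
      obtain ⟨h41, h42⟩ := h4 W hWP
      have hpos := he W
      exact ⟨hpos.le, fun _ => ⟨⟨h1 W (by omega), h42⟩, h41⟩⟩
    · rw [Finsupp.single_eq_of_ne hWP, mul_zero]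
      exact ⟨le_rfl, fun h => absurd rfl h⟩
  · -- degrees
    rw [← degree_eq_wdeg602', ← degree_eq_wdeg602', Divisor.degree_pullbackAlong ι hι hFI,
      Divisor.degree_pullbackAlong ι hι hFI, Divisor.degree_single, Divisor.degree_single, hPdeg]

end Main

end Fermat.Agent.S15.H602

end
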