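import Fermat.Agent.S15.H722.CuspCrit

/-!
# S15 / GEO-PARTS (b) IDENT (helper602): the abstract core

Pure `Finsupp` combinatorics and the type separation on an abstract place reduction
(`H722.RedCore`, `H722.InfCoord`).

* `mapDomain_filter_eq_zero_of_saturated602` : if `r_* D = 0` and `S` is saturated for `r` on the
  support of `D`, then `r_* (D|_S) = 0`;
* `mapDomain_eq_of_parts602` : if moreover `E₀` is the polar part of `D|_S`, `0 ≤ E₁ ≤` the zero
  part of `D|_S` and `deg E₁ = deg E₀`, then `r_* E₁ = r_* E₀`;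
* `NearCusp602`, `res_eq_of_r_eq602` : two places near the cusps (non-unit value of the
  coordinate `x = 1 / j`) with the same reduction give the same residue to every integral function
  `u` with poles only at poles of `x`.
-/

set_option autoImplicit false

noncomputable section

open AlgebraicCurve

namespace Fermat.Agent.S15.H602

section Pure

variable {α β : Type*}

theorem mapDomain_apply_eq_sum602 [DecidableEq β] (r : α → β) (D : α →₀ ℤ) (Q : β) :
    Finsupp.mapDomain r D Q = ∑ a ∈ D.support, if r a = Q then D a else 0 := by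
  classical
  rw [Finsupp.mapDomain, Finsupp.sum_apply, Finsupp.sum]
  refine Finset.sum_congr rfl fun a _ => ?_
  rw [Finsupp.single_apply]

/-- If `r_* D = 0` and `S` is a union of fibres of `r` on the support of `D`, then
`r_* (D|_S) = 0`. -/
theorem mapDomain_filter_eq_zero_of_saturated602 (r : α → β) (D : α →₀ ℤ)
    (hD : Finsupp.mapDomain r D = 0) (S : α → Prop) [DecidablePred S]
    (hsat : ∀ a b, D a ≠ 0 → D b ≠ 0 → r a = r b → S a → S b) :
    Finsupp.mapDomain r (D.filter S) = 0 := by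
  classical
  ext Q
  rw [Finsupp.zero_apply, mapDomain_apply_eq_sum602]
  by_cases hex : ∃ a, D a ≠ 0 ∧ S a ∧ r a = Q
  · obtain ⟨a₀, ha₀, hSa₀, hra₀⟩ := hex
    have h0 : Finsupp.mapDomain r D Q = 0 := by rw [hD, Finsupp.zero_apply]
    rw [mapDomain_apply_eq_sum602] at h0
    have key : (∑ a ∈ (D.filter S).support, if r a = Q then (D.filter S) a else 0) =
        ∑ a ∈ D.support, if r a = Q then D a else 0 := by
      rw [Finsupp.support_filter, Finset.sum_filter]
      refine Finset.sum_congr rfl fun a ha => ?_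
      have haD : D a ≠ 0 := Finsupp.mem_support_iff.mp ha
      by_cases hra : r a = Q
      · have hSa : S a := hsat a₀ a ha₀ haD (hra₀.trans hra.symm) hSa₀
        rw [if_pos hSa, if_pos hra, if_pos hra, Finsupp.filter_apply_pos S D hSa]
      · rw [if_neg hra, if_neg hra]
        simp
    rw [key, h0]
  · push Not at hex
    refine Finset.sum_eq_zero fun a ha => ?_
    rw [Finsupp.support_filter, Finset.mem_filter, Finsupp.mem_support_iff] at ha
    by_cases hra : r a = Q
    · exact absurd hra (hex a ha.1 ha.2)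
    · rw [if_neg hra]

/-- The weighted degree of a finitely supported function. -/
def wdeg602 (w : α → ℤ) : (α →₀ ℤ) →+ ℤ :=
  Finsupp.liftAddHom fun a => AddMonoidHom.mulRight (w a)

@[simp] theorem wdeg602_single (w : α → ℤ) (a : α) (n : ℤ) :
    wdeg602 w (Finsupp.single a n) = n * w a := by
  simp [wdeg602]

theorem wdeg602_eq_sum (w : α → ℤ) (E : α →₀ ℤ) :
    wdeg602 w E = ∑ a ∈ E.support, E a * w a := by
  simp [wdeg602, Finsupp.liftAddHom_apply, Finsupp.sum]

/-- An effective `E` of weighted degree `0` (positive weights) is `0`. -/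
theorem eq_zero_of_wdeg602_eq_zero (w : α → ℤ) (hw : ∀ a, 0 < w a) (E : α →₀ ℤ)
    (hE : ∀ a, 0 ≤ E a) (h0 : wdeg602 w E = 0) : E = 0 := by
  classical
  rw [wdeg602_eq_sum] at h0
  have hnn : ∀ a ∈ E.support, 0 ≤ E a * w a := fun a _ => mul_nonneg (hE a) (hw a).le
  have hz := (Finset.sum_eq_zero_iff_of_nonneg hnn).mp h0
  ext a
  rw [Finsupp.zero_apply]
  by_contra hne
  have ha : a ∈ E.support := Finsupp.mem_support_iff.mpr hne
  have := hz a ha
  rcases mul_eq_zero.mp this with h | h
  · exact hne h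
  · exact (hw a).ne' h

/-- **Core of IDENT.**  `D` with `r_* D = 0`, `S` saturated on the support of `D`, `E₀` the polar
part of `D|_S`, `0 ≤ E₁ ≤` the zero part of `D|_S`, `deg E₁ = deg E₀`, and `r_*` detecting the
degree: then `r_* E₁ = r_* E₀`. -/
theorem mapDomain_eq_of_parts602 (r : α → β) (w : α → ℤ) (hw : ∀ a, 0 < w a)
    (hr0 : ∀ E : α →₀ ℤ, Finsupp.mapDomain r E = 0 → wdeg602 w E = 0)
    (D : α →₀ ℤ) (hD : Finsupp.mapDomain r D = 0) (S : α → Prop)
    (hsat : ∀ a b, D a ≠ 0 → D b ≠ 0 → r a = r b → S a → S b)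
    (E₁ E₀ : α →₀ ℤ)
    (hE₀ : ∀ a, (S a → D a < 0 → E₀ a = - D a) ∧ (¬ (S a ∧ D a < 0) → E₀ a = 0))
    (hE₁ : ∀ a, 0 ≤ E₁ a ∧ (E₁ a ≠ 0 → S a ∧ E₁ a ≤ D a))
    (hdeg : wdeg602 w E₁ = wdeg602 w E₀) :
    Finsupp.mapDomain r E₁ = Finsupp.mapDomain r E₀ := by
  classical
  have hDS := mapDomain_filter_eq_zero_of_saturated602 r D hD S hsat
  -- `G = D|_S + E₀` is the zero part of `D|_S`
  set G : α →₀ ℤ := D.filter S + E₀ with hG
  have hGa : ∀ a, G a = if S a ∧ 0 < D a then D a else 0 := by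
    intro a
    rw [hG, Finsupp.add_apply]
    by_cases hS : S a
    · rw [Finsupp.filter_apply_pos S D hS]
      rcases lt_trichotomy (D a) 0 with h | h | h
      · rw [(hE₀ a).1 hS h, if_neg (by rintro ⟨-, h'⟩; omega)]; ring
      · rw [(hE₀ a).2 (by rintro ⟨-, h'⟩; omega), if_neg (by rintro ⟨-, h'⟩; omega), h]; ring
      · rw [(hE₀ a).2 (by rintro ⟨-, h'⟩; omega), if_pos ⟨hS, h⟩]; ring
    · rw [Finsupp.filter_apply_neg S D hS, (hE₀ a).2 (fun h => hS h.1),
        if_neg (fun h => hS h.1)]; ring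
  have hle : ∀ a, 0 ≤ (G - E₁) a := by
    intro a
    rw [Finsupp.sub_apply, hGa]
    by_cases h1 : E₁ a = 0
    · rw [h1, sub_zero]
      split_ifs with h
      · exact h.2.le
      · exact le_rfl
    · obtain ⟨hS, hle⟩ := (hE₁ a).2 h1
      have hpos : 0 < E₁ a := lt_of_le_of_ne (hE₁ a).1 (Ne.symm h1)
      rw [if_pos ⟨hS, lt_of_lt_of_le hpos hle⟩]
      omega
  have hdegG : wdeg602 w (G - E₁) = 0 := by
    rw [map_sub, hG, map_add, hr0 _ hDS, zero_add, hdeg, sub_self]
  have hGE : G - E₁ = 0 := eq_zero_of_wdeg602_eq_zero w hw _ hle hdegG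
  have hGE' : E₁ = G := (sub_eq_zero.mp hGE).symm
  rw [hGE', hG, Finsupp.mapDomain_add, hDS, zero_add]

theorem wdeg602_mapDomain' (r : α → β) (w : α → ℤ) (w' : β → ℤ) (hww : ∀ a, w' (r a) = w a)
    (E : α →₀ ℤ) : wdeg602 w' (Finsupp.mapDomain r E) = wdeg602 w E := by
  induction E using Finsupp.induction_linear with
  | zero => simp
  | add f g hf hg => rw [Finsupp.mapDomain_add, map_add, map_add, hf, hg]
  | single a n => rw [Finsupp.mapDomain_single, wdeg602_single, wdeg602_single, hww]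

end Pure

theorem degree_eq_wdeg602' {K F : Type*} [Field K] [Field F] [Algebra K F] (D : Divisor K F) :
    Divisor.degree D = wdeg602 (fun v : Place K F => (v.deg : ℤ)) D := rfl

section Red

open Fermat.Agent.S15.H722 Fermat.Agent.Lib.RR

variable {K F k Fk : Type*} [Field K] [Field F] [Algebra K F] [Field k] [Field Fk] [Algebra k Fk]
variable {Φ : RedCore K F k Fk} (X : InfCoord Φ)

/-- `W` is near the cusps: the coordinate `x` takes a non-unit value of `A` at `W`. -/
def NearCusp602 (W : Place K F) : Prop :=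
  ∃ c : Φ.A, ¬ IsUnit c ∧ HasVal W (X.x : F) (c : K)

variable [HasPrincipalDivisors K F]

/-- Near the cusps, an integral function with poles only at poles of `x` has integral values,
and places with the same reduction give the same residue. -/
theorem res_eq_of_r_eq602 {u : Φ.O}
    (hu : ∀ P : Place K F, P.ord (u : F) < 0 → P.ord (X.x : F) < 0)
    {W W' : Place K F} (hW : NearCusp602 X W) (hW' : NearCusp602 X W')
    (hr : Φ.r W = Φ.r W') {b b' : K} (hb : HasVal W (u : F) b) (hb' : HasVal W' (u : F) b') :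
    ∃ (h : b ∈ Φ.A) (h' : b' ∈ Φ.A), Φ.res ⟨b, h⟩ = Φ.res ⟨b', h'⟩ := by
  obtain ⟨c, hc, hWc⟩ := hW
  obtain ⟨c', hc', hWc'⟩ := hW'
  have hQ := X.ord_ρx_pos hc hWc
  have hQ' := X.ord_ρx_pos hc' hWc'
  obtain ⟨h, h1⟩ := X.hasVal_near hu hQ hb
  obtain ⟨h', h2⟩ := X.hasVal_near hu hQ' hb'
  rw [← hr] at h2
  exact ⟨h, h', h1.unique h2⟩

omit [HasPrincipalDivisors K F] in
/-- Near the cusps, an integral function with poles only at poles of `x` is regular. -/
theorem ord_nonneg_of_nearCusp602 {u : Φ.O}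
    (hu : ∀ P : Place K F, P.ord (u : F) < 0 → P.ord (X.x : F) < 0)
    {W : Place K F} (hW : NearCusp602 X W) : 0 ≤ W.ord (u : F) := by
  obtain ⟨c, -, hWc⟩ := hW
  by_contra hcon
  push Not at hcon
  have := hu W hcon
  have := hWc.ord_nonneg
  omega

end Red

end Fermat.Agent.S15.H602

end
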