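import Fermat.Agent.S15.H602.IdentLevel
import Fermat.Agent.S15.H182.Red
import Fermat.Agent.S15.H962.GeoIdent

/-!
# S15 / GEO-PARTS (b) (helper602): the specialisation maps kill the residue discs

* `killedBy_comp_pullback602` : for `k` prime, `k ≠ p`, and `A` with `p k` invertible in the
  residue field, `reductionModL A (p k) ∘ π^*` kills `discK p A P₀`
  (`identLevel602` + `reductionModL_mk` + `pullbackPic0Along_mk`);
* `killedBy_spThree602`, `killedBy_spTwo602` : the maps `H182.spThree`, `H182.spTwo` of helper182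
  kill `discK p A P₀` at the places over `3`, resp. `2`;
* `spStatement602` : **(b) of GEO-PARTS**, `SpStatement p` for `p > 5` prime, i.e. exactly the
  hypothesis `hsp` of `H542.geoParts_of_pieces` / `geoStatement_of_pieces`
  (`q ≥ 5` : helper962's `killedBy_reductionModL_of_inputs`, helper182's `sp_inj_of_five_le`).
-/

set_option autoImplicit false
set_option synthInstance.maxHeartbeats 400000
set_option maxHeartbeats 1000000

noncomputable section

open AlgebraicCurve ModularCurve

namespace Fermat.Agent.S15.H602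

open Fermat.Agent.S15.Core Fermat.Agent.S15.H962
open Fermat.Agent.S15.H362 (Qb FB)

section Final

variable (p : ℕ) [NeZero p]

theorem eq_cuspZero_of_isCuspZero602 (hp : p.Prime) {P₀ : Place Qb (FB p)}
    (hP₀ : IsCuspZero p P₀) : P₀ = Fermat.Agent.S15.H362.cuspZero p := by
  obtain ⟨h1, h2⟩ := hP₀
  have h3 : P₀.ord (Fermat.Agent.S15.H362.jBar p) < 0 := h2
  rcases Fermat.Agent.S15.H362.eq_cusp_of_ord_jBar_neg p hp P₀ h3 with e | e
  · rw [Fermat.Agent.S15.H362.cuspInfty_eq_core] at e
    exact absurd e h1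
  · exact e

/-- **Killing at level `p k`.** -/
theorem killedBy_comp_pullback602 (k : ℕ) [NeZero k] (hp : p.Prime) (hp5 : 5 < p)
    (hk : k.Prime) (hkp : k ≠ p) (A : ValuationSubring Qb)
    (hN : ((p * k : ℕ) : IsLocalRing.ResidueField A) ≠ 0)
    (h : ReductionInputsModL A (p * k))
    (hι : (heckeAlphaBar Qb p k).toRingHom.IsIntegral)
    (hFI : FundamentalIdentityAlong Qb (heckeAlphaBar Qb p k) hι)
    (P₀ : Place Qb (FB p)) (hP₀ : IsCuspZero p P₀) :
    KilledBy p A P₀ ((reductionModL A (p * k)).comp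
      (Fermat.Agent.S37.H818.pullbackPic0Along (heckeAlphaBar Qb p k) hι hFI)) := by
  have hP₀eq := eq_cuspZero_of_isCuspZero602 p hp hP₀
  have key := identLevel602 p hp hp5 k hk hkp A hN (placeReductionModL h)
    (isPlaceReductionModL_placeReductionModL h) hι
  have kill : ∀ (P P₁ : Place Qb (FB p)) (z : JZero p),
      Finsupp.mapDomain (placeReductionModL h)
          (Divisor.pullbackAlong (heckeAlphaBar Qb p k) hι (Finsupp.single P 1)) =
        Finsupp.mapDomain (placeReductionModL h)
          (Divisor.pullbackAlong (heckeAlphaBar Qb p k) hι (Finsupp.single P₁ 1)) →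
      IsDiffClass P P₁ z →
      ((reductionModL A (p * k)).comp
        (Fermat.Agent.S37.H818.pullbackPic0Along (heckeAlphaBar Qb p k) hι hFI)) z = 0 := by
    rintro P P₁ z hPP ⟨hd, rfl⟩
    rw [AddMonoidHom.comp_apply, Fermat.Agent.S37.H818.pullbackPic0Along_mk, reductionModL_mk h]
    have hz : reductionDegZeroAlong (placeReductionModL h)
        (isPlaceReductionModL_placeReductionModL h).1
        (Fermat.Agent.S37.H818.pullbackDegZeroAlong (heckeAlphaBar Qb p k) hι hFI
          ⟨Finsupp.single P (1 : ℤ) - Finsupp.single P₁ 1, hd⟩) = 0 := by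
      apply Subtype.ext
      rw [coe_reductionDegZeroAlong, Fermat.Agent.S37.H818.coe_pullbackDegZeroAlong]
      show Finsupp.mapDomain (placeReductionModL h)
        (Divisor.pullbackAlong (heckeAlphaBar Qb p k) hι
          (Finsupp.single P (1 : ℤ) - Finsupp.single P₁ 1)) = 0
      rw [map_sub, Finsupp.mapDomain_sub, hPP, sub_self]
    rw [hz]
    rfl
  refine killedBy_of_gens ?_ ?_
  · intro P z hP hz
    refine kill P P₀ z ?_ hz
    rw [hP₀eq]
    exact (key P).1 hP
  · intro P z hP hz
    exact kill P (cuspInfty p) z ((key P).2 hP) hz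

theorem two_three_not_dvd602 (hp : p.Prime) (hp5 : 5 < p) : ¬ 2 ∣ p ∧ ¬ 3 ∣ p := by
  constructor
  · intro h
    have := (Nat.prime_dvd_prime_iff_eq Nat.prime_two hp).mp h
    omega
  · intro h
    have := (Nat.prime_dvd_prime_iff_eq Nat.prime_three hp).mp h
    omega

/-- **(b) at the places over `3`** (level `2 p`). -/
theorem killedBy_spThree602 (hp : p.Prime) (hp5 : 5 < p) (h2 : ¬ 2 ∣ p) (h3 : ¬ 3 ∣ p)
    (A : ValuationSubring Qb) (hA : A.LiesOverPrime 3)
    (P₀ : Place Qb (FB p)) (hP₀ : IsCuspZero p P₀) :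
    KilledBy p A P₀ (Fermat.Agent.S15.H182.spThree p h2 h3 A) := by
  have hN : ((p * 2 : ℕ) : IsLocalRing.ResidueField A) ≠ 0 :=
    Fermat.Agent.S18.H905.natCast_residue_ne_zero A Nat.prime_three hA
      (Fermat.Agent.S15.H182.three_not_dvd_mul_two h3)
  exact killedBy_comp_pullback602 p 2 hp hp5 Nat.prime_two (by omega) A hN
    (Fermat.Agent.S15.H182.rim_three p h3 A hA)
    (Fermat.Agent.S15.H182.transferThree p h2 h3).isIntegral
    (Fermat.Agent.S15.H182.transferThree p h2 h3).fundamentalIdentity P₀ hP₀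

/-- **(b) at the places over `2`** (level `3 p`). -/
theorem killedBy_spTwo602 (hp : p.Prime) (hp5 : 5 < p) (h2 : ¬ 2 ∣ p) (h3 : ¬ 3 ∣ p)
    (A : ValuationSubring Qb) (hA : A.LiesOverPrime 2)
    (P₀ : Place Qb (FB p)) (hP₀ : IsCuspZero p P₀) :
    KilledBy p A P₀ (Fermat.Agent.S15.H182.spTwo p h2 h3 A) := by
  have hN : ((p * 3 : ℕ) : IsLocalRing.ResidueField A) ≠ 0 :=
    Fermat.Agent.S18.H905.natCast_residue_ne_zero A Nat.prime_two hA
      (Fermat.Agent.S15.H182.two_not_dvd_mul_three h2)
  exact killedBy_comp_pullback602 p 3 hp hp5 Nat.prime_three (by omega) A hN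
    (Fermat.Agent.S15.H182.rim_two p h2 A hA)
    (Fermat.Agent.S15.H182.transferTwo p h2 h3).isIntegral
    (Fermat.Agent.S15.H182.transferTwo p h2 h3).fundamentalIdentity P₀ hP₀

/-- **GEO-PARTS (b)**: at every place `A` over a prime `q ≠ p` there is a specialisation map,
injective on the torsion of order prime to `q`, which kills `discK p A P₀`. -/
theorem spStatement602 (hp : p.Prime) (hp5 : 5 < p) : SpStatement p := by
  intro q hq hqp A hA P₀ hP₀
  obtain ⟨h2, h3⟩ := two_three_not_dvd602 p hp hp5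
  by_cases hq5 : 5 ≤ q
  · have hqN : ¬ q ∣ p := fun hd => hqp ((Nat.prime_dvd_prime_iff_eq hq hp).mp hd)
    exact ⟨JZeroC (IsLocalRing.ResidueField A) p, inferInstance, reductionModL A p,
      fun m z hm hmz hz =>
        Fermat.Agent.S15.H182.sp_inj_of_five_le p hq hq5 hqN A hA m z hm hmz hz,
      killedBy_reductionModL_of_inputs p hp hq hqp A hA P₀ hP₀
        (Fermat.Agent.S15.H182.rim_of_five_le p hq hq5 hqN A hA)⟩
  · have hq23 : q = 2 ∨ q = 3 := by
      have hlt : q < 5 := by omega
      have h2le := hq.two_le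
      interval_cases q
      · exact Or.inl rfl
      · exact Or.inr rfl
      · exact absurd hq (by decide)
    rcases hq23 with rfl | rfl
    · exact ⟨JZeroC (IsLocalRing.ResidueField A) (p * 3), inferInstance,
        Fermat.Agent.S15.H182.spTwo p h2 h3 A,
        fun m z hm hmz hz => Fermat.Agent.S15.H182.spTwo_inj p h2 h3 A hA m z hm hmz hz,
        killedBy_spTwo602 p hp hp5 h2 h3 A hA P₀ hP₀⟩
    · exact ⟨JZeroC (IsLocalRing.ResidueField A) (p * 2), inferInstance,
        Fermat.Agent.S15.H182.spThree p h2 h3 A,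
        fun m z hm hmz hz => Fermat.Agent.S15.H182.spThree_inj p h2 h3 A hA m z hm hmz hz,
        killedBy_spThree602 p hp hp5 h2 h3 A hA P₀ hP₀⟩

end Final

end Fermat.Agent.S15.H602

end
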