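import Fermat.Agent.S15.H602.IdentCore
import Fermat.Agent.S15.H722.LevelP
import Fermat.Agent.Lib.RR.H560.Hpd
import Fermat.Agent.S37.Red.H208.H1
import Fermat.Agent.S18.H739.ModFinite
import Fermat.Agent.S18.H905.ConstInst
import Fermat.Agent.S18.H9.Res

/-!
# S15 / GEO-PARTS (b) IDENT (helper602): zeros and poles of `j` under a place reduction

For ANY place reduction `r` in the sense of the Prelude (`IsPlaceReductionAlong A (residue A) N r`,
`A` a valuation subring of `ℚ̄` whose residue characteristic does not divide `N`):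

* `ord_red_pos_of_ord_pos602` : zeros of `j` reduce to zeros of `j̄`;
* `ord_red_neg_of_ord_neg602` : poles of `j` (cusps) reduce to poles of `j̄`.

Proof: conservation `r_* div j = div j̄` and `deg (j)_∞ = ψ(N) = deg (j̄)_∞` (no cancellation).
These are the hypotheses `hzero`, `hpole` of `H722.modInfCoord` / `H722.r_eq_cusp`.
-/

set_option autoImplicit false
set_option synthInstance.maxHeartbeats 400000

noncomputable section

open AlgebraicCurve ModularCurve HahnSeries IntermediateField

namespace Fermat.Agent.S15.H602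

section Pure

variable {α β : Type*}

theorem mapDomain_nonneg602 (r : α → β) (E : α →₀ ℤ) (hE : ∀ a, 0 ≤ E a) (b : β) :
    0 ≤ Finsupp.mapDomain r E b := by
  classical
  rw [mapDomain_apply_eq_sum602]
  refine Finset.sum_nonneg fun a _ => ?_
  split_ifs
  · exact hE a
  · exact le_rfl

theorem le_mapDomain602 (r : α → β) (E : α →₀ ℤ) (hE : ∀ a, 0 ≤ E a) (a : α) :
    E a ≤ Finsupp.mapDomain r E (r a) := by
  classical
  rw [mapDomain_apply_eq_sum602]
  by_cases ha : a ∈ E.support
  · have hnn : ∀ c ∈ E.support, 0 ≤ (if r c = r a then E c else 0) := by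
      intro c _
      split_ifs
      · exact hE c
      · exact le_rfl
    have := Finset.single_le_sum hnn ha
    rwa [if_pos rfl] at this
  · rw [Finsupp.notMem_support_iff.mp ha]
    refine Finset.sum_nonneg fun c _ => ?_
    split_ifs
    · exact hE c
    · exact le_rfl

/-- **No cancellation.**  If `r_* D = D̄` and the polar parts of `D` and `D̄` have the same
degree, then `r` maps poles to poles and zeros to zeros. -/
theorem sign_of_mapDomain602 (r : α → β) (w : α → ℤ) (w' : β → ℤ) (hw' : ∀ b, 0 < w' b)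
    (hww : ∀ a, w' (r a) = w a) (D : α →₀ ℤ) (Dbar : β →₀ ℤ)
    (h : Finsupp.mapDomain r D = Dbar)
    (Dm : α →₀ ℤ) (hDm : ∀ a, Dm a = max 0 (-D a))
    (Dbm : β →₀ ℤ) (hDbm : ∀ b, Dbm b = max 0 (-Dbar b))
    (hdeg : wdeg602 w Dm = wdeg602 w' Dbm) :
    ∀ a, (D a < 0 → Dbar (r a) < 0) ∧ (0 < D a → 0 < Dbar (r a)) := by
  classical
  set Dp : α →₀ ℤ := D + Dm with hDp
  have hDpa : ∀ a, Dp a = max 0 (D a) := by
    intro a
    rw [hDp, Finsupp.add_apply, hDm]
    rcases le_total 0 (D a) with h0 | h0
    · rw [max_eq_left (by omega), max_eq_right h0]; ring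
    · rw [max_eq_right (by omega), max_eq_left h0]; ring
  have hDm0 : ∀ a, 0 ≤ Dm a := fun a => by rw [hDm]; exact le_max_left _ _
  have hDp0 : ∀ a, 0 ≤ Dp a := fun a => by rw [hDpa]; exact le_max_left _ _
  set mp := Finsupp.mapDomain r Dp with hmp
  set mm := Finsupp.mapDomain r Dm with hmm
  have hmp0 : ∀ b, 0 ≤ mp b := mapDomain_nonneg602 r Dp hDp0
  have hmm0 : ∀ b, 0 ≤ mm b := mapDomain_nonneg602 r Dm hDm0
  have hbar : ∀ b, Dbar b = mp b - mm b := by
    intro b
    have hD : D = Dp - Dm := by rw [hDp]; abel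
    rw [← h, hD, Finsupp.mapDomain_sub, Finsupp.sub_apply]
  -- `E = mm - Dbm ≥ 0` has degree `0`
  have hE0 : ∀ b, 0 ≤ (mm - Dbm) b := by
    intro b
    rw [Finsupp.sub_apply, hDbm, hbar]
    have h1 := hmp0 b
    have h2 := hmm0 b
    rcases le_total 0 (-(mp b - mm b)) with h0 | h0
    · rw [max_eq_right h0]; omega
    · rw [max_eq_left h0]; omega
  have hEdeg : wdeg602 w' (mm - Dbm) = 0 := by
    rw [map_sub, hmm, wdeg602_mapDomain' r w w' hww, hdeg, sub_self]
  have hE := eq_zero_of_wdeg602_eq_zero w' hw' _ hE0 hEdeg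
  have hmmeq : ∀ b, mm b = max 0 (-(mp b - mm b)) := by
    intro b
    have := congrArg (fun f : β →₀ ℤ => f b) hE
    simp only [Finsupp.sub_apply, Finsupp.zero_apply] at this
    rw [hDbm, hbar] at this
    omega
  intro a
  constructor
  · intro ha
    have h1 : Dm a ≤ mm (r a) := le_mapDomain602 r Dm hDm0 a
    have h2 : 0 < Dm a := by rw [hDm, max_eq_right (by omega)]; omega
    have h3 := hmmeq (r a)
    have h4 := hmp0 (r a)
    rw [hbar]
    rcases le_total 0 (-(mp (r a) - mm (r a))) with h0 | h0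
    · rw [max_eq_right h0] at h3; omega
    · rw [max_eq_left h0] at h3; omega
  · intro ha
    have h1 : Dp a ≤ mp (r a) := le_mapDomain602 r Dp hDp0 a
    have h2 : 0 < Dp a := by rw [hDpa, max_eq_right (by omega)]; omega
    have h3 := hmmeq (r a)
    have h4 := hmm0 (r a)
    rw [hbar]
    rcases le_total 0 (-(mp (r a) - mm (r a))) with h0 | h0
    · rw [max_eq_right h0] at h3; omega
    · rw [max_eq_left h0] at h3; omega

end Pure

section Modular

open Fermat.Agent.S15.H722 Fermat.Agent.Lib.RR Fermat.Agent.S37.Red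

variable (N : ℕ) [NeZero N] (A : ValuationSubring (AlgebraicClosure ℚ))

omit [NeZero N] in
theorem transcendental_jF602 : Transcendental (AlgebraicClosure ℚ) (jF (AlgebraicClosure ℚ) N) := by
  intro h
  apply Fermat.Agent.S18.H905.transcendental_jqModC (AlgebraicClosure ℚ)
  exact (isAlgebraic_algHom_iff
    (laurentBaseChange (AlgebraicClosure ℚ) (modularFunctionFieldFull N)).val
    Subtype.val_injective).mpr h

/-- **Zeros and poles of `j` reduce to zeros and poles of `j̄`.** -/
theorem sign_red_jF602 (hN : (N : IsLocalRing.ResidueField A) ≠ 0)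
    (r : Place (AlgebraicClosure ℚ)
        (laurentBaseChange (AlgebraicClosure ℚ) (modularFunctionFieldFull N)) →
      Place (IsLocalRing.ResidueField A) (modularFunctionFieldFullC (IsLocalRing.ResidueField A) N))
    (hr : IsPlaceReductionAlong A (IsLocalRing.residue A) N r)
    (P : Place (AlgebraicClosure ℚ)
        (laurentBaseChange (AlgebraicClosure ℚ) (modularFunctionFieldFull N))) :
    (P.ord (jF (AlgebraicClosure ℚ) N) < 0 →
        (r P).ord (jFk (IsLocalRing.ResidueField A) N) < 0) ∧
      (0 < P.ord (jF (AlgebraicClosure ℚ) N) →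
        0 < (r P).ord (jFk (IsLocalRing.ResidueField A) N)) := by
  classical
  haveI : IsAlgClosed (IsLocalRing.ResidueField A) :=
    Fermat.Agent.S18.H9.resAlgClosed (AlgebraicClosure ℚ) A
  -- the two coordinates
  set x : FN N := jF (AlgebraicClosure ℚ) N with hx
  set xk : FNk A N := jFk (IsLocalRing.ResidueField A) N with hxk
  have hxt : Transcendental (AlgebraicClosure ℚ) x := transcendental_jF602 N
  have hxkt : Transcendental (IsLocalRing.ResidueField A) xk :=
    Fermat.Agent.S18.H739.transcendental_jC (IsLocalRing.ResidueField A) N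
  obtain ⟨hfin, hrank⟩ := H208.finrank_bar N x rfl
  obtain ⟨hfink, hrankk⟩ := H208.finrank_k N A hN xk rfl
  haveI := hfin
  haveI := hfink
  have hdeg1 : ∀ v : Place (AlgebraicClosure ℚ) (FN N), v.deg = 1 := H560.hdeg_all x hxt
  have hdeg1k : ∀ v : Place (IsLocalRing.ResidueField A) (FNk A N), v.deg = 1 :=
    H560.hdeg_all xk hxkt
  -- conservation for `j`
  have hπ : ∀ a : A, ¬ IsUnit a → IsLocalRing.residue A a = 0 := fun a ha =>
    (IsLocalRing.residue_eq_zero_iff a).mpr ((IsLocalRing.mem_maximalIdeal a).mpr ha)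
  set Φ := modRedCore A (IsLocalRing.residue A) N hπ r hr with hΦ
  have hρ : Φ.ρ (jO A (IsLocalRing.residue A) N) = xk := redO_jO A (IsLocalRing.residue A) N
  have hρ0 : Φ.ρ (jO A (IsLocalRing.residue A) N) ≠ 0 := by
    rw [hρ]; exact jFk_ne_zero _ N
  have hcons : Finsupp.mapDomain r (H560.divF x hxt x) = H560.divF xk hxkt xk := by
    ext Q
    have := Φ.red (jO A (IsLocalRing.residue A) N) hρ0 (H560.divF x hxt x)
      (fun P => by rw [H560.divF_apply, coe_jO]) Q
    rw [hρ] at this
    rw [H560.divF_apply]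
    exact this
  have hdeg : wdeg602 (fun v : Place (AlgebraicClosure ℚ) (FN N) => (v.deg : ℤ))
        (H560.poleD x hxt x) =
      wdeg602 (fun v : Place (IsLocalRing.ResidueField A) (FNk A N) => (v.deg : ℤ))
        (H560.poleD xk hxkt xk) := by
    rw [← degree_eq_wdeg602', ← degree_eq_wdeg602', H560.degree_poleD x hxt x hxt,
      H560.degree_poleD xk hxkt xk hxkt, hrank, hrankk]
  have key := sign_of_mapDomain602 r (fun v => (v.deg : ℤ)) (fun v => (v.deg : ℤ))
    (fun b => by rw [hdeg1k b]; norm_num) (fun a => by rw [hr.1 a])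
    (H560.divF x hxt x) (H560.divF xk hxkt xk) hcons
    (H560.poleD x hxt x) (fun a => by rw [H560.poleD_apply, H560.divF_apply])
    (H560.poleD xk hxkt xk) (fun b => by rw [H560.poleD_apply, H560.divF_apply]) hdeg P
  rw [H560.divF_apply, H560.divF_apply] at key
  exact key

end Modular

end Fermat.Agent.S15.H602

end
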