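import Fermat.Agent.S15.H362.CuspRatio
import Fermat.Agent.S15.H722.LevelP
import Fermat.Agent.S15.H542.ModA2
import Fermat.Agent.S15.H602.IdentAbs

/-!
# S15 / GEO-PARTS (b) IDENT (helper602): the functions `j`, `j_p`, `j_p / j ^ p` at level `p`

Facts on the places of `F_p = ℚ̄(X₀(p))`, `p` prime, used by IDENT at level `p` and (through
restriction of places) at level `p k`:

* `ord_jBar_pos_of_ord_ratio_neg602` : the poles of `u = j_p / j ^ p` are zeros of `j`;
* `hasVal_ratio_cuspInfty602`, `hasVal_ratio_cuspZero602` : `u (∞) = 1`, `u (0) = 0`;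
* `one_lt_val_jBar_of_jLevelBar602` : `j_p (P) = b`, `v b > 1` ⟹ `v (j (P)) > 1`
  (Newton polygon of the modular equation, `H962.val_root_of_isModularShape`).
-/

set_option autoImplicit false
set_option synthInstance.maxHeartbeats 400000

noncomputable section

open AlgebraicCurve ModularCurve HahnSeries

namespace Fermat.Agent.S15.H602

open Fermat.Agent.S15.H722 Fermat.Agent.Lib.RR Fermat.Agent.S18.H725 Fermat.Agent.S15.H362

section LevelP

variable (p : ℕ) [NeZero p]

theorem jBar_sub_const_ne_zero602 (c : Qb) : jBar p - algebraMap Qb (FB p) c ≠ 0 := by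
  intro h
  have h1 : jBar p = algebraMap Qb (FB p) c := sub_eq_zero.mp h
  have h2 := ord_cuspInfty_jBar p
  rw [h1, ord_algebraMap] at h2
  omega

theorem jLevelBar_sub_const_ne_zero602 (c : Qb) :
    jLevelBar p - algebraMap Qb (FB p) c ≠ 0 := by
  intro h
  have h1 : jLevelBar p = algebraMap Qb (FB p) c := sub_eq_zero.mp h
  have h2 := ord_cuspInfty_jLevelBar p
  rw [h1, ord_algebraMap] at h2
  have : (p : ℤ) ≠ 0 := by exact_mod_cast NeZero.ne p
  omega

theorem jBar_ne_zero602 : jBar p ≠ 0 := by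
  have := jBar_sub_const_ne_zero602 p 0
  rwa [map_zero, sub_zero] at this

theorem jLevelBar_ne_zero602 : jLevelBar p ≠ 0 := by
  have := jLevelBar_sub_const_ne_zero602 p 0
  rwa [map_zero, sub_zero] at this

theorem hasValueAt_jBar_iff602 {P : Place Qb (FB p)} {a : Qb} :
    Fermat.Agent.S15.H542.HasValueAt P (Fermat.Agent.S15.H542.jBar p) a ↔
      HasVal P (jBar p) a := by
  constructor
  · intro h
    exact Or.inr h
  · intro h
    exact h.resolve_left (jBar_sub_const_ne_zero602 p a)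

theorem hasValueAt_jNBar_iff602 {P : Place Qb (FB p)} {a : Qb} :
    Fermat.Agent.S15.H542.HasValueAt P (Fermat.Agent.S15.H542.jNBar p) a ↔
      HasVal P (jLevelBar p) a := by
  constructor
  · intro h
    exact Or.inr h
  · intro h
    exact h.resolve_left (jLevelBar_sub_const_ne_zero602 p a)

/-- the poles of `j_p` are poles of `j` -/
theorem ord_jBar_neg_of_jLevelBar602 (hp : p.Prime) (P : Place Qb (FB p))
    (h : P.ord (jLevelBar p) < 0) : P.ord (jBar p) < 0 := by
  have hp0 : (0 : ℤ) < p := by exact_mod_cast hp.pos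
  rcases eq_cusp_of_ord_jLevelBar_neg p hp P h with rfl | rfl
  · rw [ord_cuspInfty_jBar]; omega
  · rw [ord_cuspZero_jBar]; omega

/-- the poles of `j` are poles of `j_p` -/
theorem ord_jLevelBar_neg_of_jBar602 (hp : p.Prime) (P : Place Qb (FB p))
    (h : P.ord (jBar p) < 0) : P.ord (jLevelBar p) < 0 := by
  have hp0 : (0 : ℤ) < p := by exact_mod_cast hp.pos
  rcases eq_cusp_of_ord_jBar_neg p hp P h with rfl | rfl
  · rw [ord_cuspInfty_jLevelBar]; omega
  · rw [ord_cuspZero_jLevelBar]; omega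

/-- `u = j_p / j ^ p` -/
def ratio602 : FB p := jLevelBar p / jBar p ^ p

theorem ord_ratio602 (P : Place Qb (FB p)) :
    P.ord (ratio602 p) = P.ord (jLevelBar p) - p * P.ord (jBar p) := by
  unfold ratio602
  rw [div_eq_mul_inv, P.ord_mul (jLevelBar_ne_zero602 p)
    (inv_ne_zero (pow_ne_zero _ (jBar_ne_zero602 p))), P.ord_inv, ord_pow]
  ring

/-- the poles of `u` are zeros of `j` -/
theorem ord_jBar_pos_of_ord_ratio_neg602 (hp : p.Prime) (P : Place Qb (FB p))
    (h : P.ord (ratio602 p) < 0) : 0 < P.ord (jBar p) := by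
  have hp2 : (2 : ℤ) ≤ p := by exact_mod_cast hp.two_le
  rw [ord_ratio602] at h
  by_contra hcon
  push Not at hcon
  rcases lt_or_eq_of_le hcon with hlt | heq
  · rcases eq_cusp_of_ord_jBar_neg p hp P hlt with rfl | rfl
    · rw [ord_cuspInfty_jLevelBar, ord_cuspInfty_jBar] at h
      linarith
    · rw [ord_cuspZero_jLevelBar, ord_cuspZero_jBar] at h
      nlinarith
  · rw [heq, mul_zero, sub_zero] at h
    have := ord_jBar_neg_of_jLevelBar602 p hp P h
    omega

theorem hasVal_ratio_cuspZero602 (hp : p.Prime) : HasVal (cuspZero p) (ratio602 p) 0 := by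
  have hp2 : (2 : ℤ) ≤ p := by exact_mod_cast hp.two_le
  apply hasVal_zero_of_ord_pos
  rw [ord_ratio602, ord_cuspZero_jLevelBar, ord_cuspZero_jBar]
  nlinarith

theorem coe_jBar_eq602 : ((jBar p : FB p) : LaurentSeries Qb) = jqModC Qb :=
  Fermat.Agent.S15.H542.coe_jBar_eq p

theorem coe_jLevelBar_eq602 :
    ((jLevelBar p : FB p) : LaurentSeries Qb) = qExpand Qb p (jqModC Qb) :=
  Fermat.Agent.S15.H542.coe_jNBar_eq p

theorem hasVal_ratio_cuspInfty602 : HasVal (cuspInfty p) (ratio602 p) 1 := by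
  have hp0 : (p : ℤ) ≠ 0 := by exact_mod_cast NeZero.ne p
  by_cases hx : jLevelBar p - jBar p ^ p = 0
  · left
    have h1 : jLevelBar p = jBar p ^ p := sub_eq_zero.mp hx
    unfold ratio602
    rw [h1, div_self (pow_ne_zero _ (jBar_ne_zero602 p)), map_one, sub_self]
  · right
    have hpow : jBar p ^ p ≠ 0 := pow_ne_zero _ (jBar_ne_zero602 p)
    have hfac : ratio602 p - algebraMap Qb (FB p) 1 =
        (jLevelBar p - jBar p ^ p) * (jBar p ^ p)⁻¹ := by
      unfold ratio602
      rw [map_one]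
      field_simp
    rw [hfac, (cuspInfty p).ord_mul hx (inv_ne_zero hpow), (cuspInfty p).ord_inv, ord_pow,
      ord_cuspInfty_jBar, ord_cuspInfty]
    -- the `q`-order of `j_p - j ^ p` is `> -p`
    have hL1 : Fermat.Agent.S15.H386.IsLead (jqModC Qb) (-1) 1 :=
      Fermat.Agent.S15.H386.isLead_jqModC
    have hL2 : Fermat.Agent.S15.H386.IsLead (qExpand Qb p (jqModC Qb)) (-(p : ℤ)) 1 := by
      have := Fermat.Agent.S15.H386.isLead_qExpand p hL1
      simpa using this
    have hL3 : Fermat.Agent.S15.H386.IsLead (jqModC Qb ^ p) (-(p : ℤ)) 1 := by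
      have := hL1.pow p
      simpa using this
    have hL4 := hL2.sub hL3
    rw [sub_self] at hL4
    have hcoe : ((jLevelBar p - jBar p ^ p : FB p) : LaurentSeries Qb) =
        qExpand Qb p (jqModC Qb) - jqModC Qb ^ p := by
      rw [← coe_jLevelBar_eq602 p, ← coe_jBar_eq602 p]
      rfl
    have hne : ((jLevelBar p - jBar p ^ p : FB p) : LaurentSeries Qb) ≠ 0 := by
      intro h0
      exact hx (Subtype.ext h0)
    rw [Fermat.Agent.S15.H386.isLead_iff_lt_orderTop, HahnSeries.single_eq_zero, sub_zero,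
      ← hcoe, ← HahnSeries.order_eq_orderTop_of_ne_zero hne] at hL4
    have hL5 : -(p : ℤ) < ((jLevelBar p - jBar p ^ p : FB p) : LaurentSeries Qb).order := by
      exact_mod_cast hL4
    linarith

theorem hasVal_ratio602 {P : Place Qb (FB p)} {a b : Qb} (ha : HasVal P (jBar p) a)
    (hb : HasVal P (jLevelBar p) b) (ha0 : a ≠ 0) : HasVal P (ratio602 p) (b / a ^ p) :=
  hb.div (ha.pow p) (pow_ne_zero _ ha0)

/-- a place where `j_p` is regular has a `j`-value -/
theorem exists_hasVal_jBar602 (hp : p.Prime) {P : Place Qb (FB p)}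
    (h : 0 ≤ P.ord (jLevelBar p)) : ∃ a : Qb, HasVal P (jBar p) a := by
  refine exists_hasVal P (Fermat.Agent.Lib.FF398.deg_eq_one_FF p P) ?_
  by_contra hcon
  push Not at hcon
  have := ord_jLevelBar_neg_of_jBar602 p hp P hcon
  omega

/-- a place where `j` is regular has a `j_p`-value -/
theorem exists_hasVal_jLevelBar602 (hp : p.Prime) {P : Place Qb (FB p)}
    (h : 0 ≤ P.ord (jBar p)) : ∃ b : Qb, HasVal P (jLevelBar p) b := by
  refine exists_hasVal P (Fermat.Agent.Lib.FF398.deg_eq_one_FF p P) ?_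
  by_contra hcon
  push Not at hcon
  have := ord_jBar_neg_of_jLevelBar602 p hp P hcon
  omega

/-- **Newton polygon**: a non-integral value of `j_p` forces a non-integral value of `j`. -/
theorem one_lt_val_jBar_of_jLevelBar602 (hp : p.Prime) {Γ₀ : Type*}
    [LinearOrderedCommGroupWithZero Γ₀] (v : Valuation Qb Γ₀)
    {P : Place Qb (FB p)} {a b : Qb} (ha : HasVal P (jBar p) a)
    (hb : HasVal P (jLevelBar p) b) (hvb : 1 < v b) : 1 < v a := by
  obtain ⟨Φ, hshape, -, hyx⟩ := Fermat.Agent.S15.H542.eval2_jBar_jNBar p hp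
  have hP1 := (hasValueAt_jBar_iff602 p).mpr ha
  have hP2 := (hasValueAt_jNBar_iff602 p).mpr hb
  have hc := Fermat.Agent.S15.H542.isCentredAt_of_hasValueAt p hP1 hP2
  have hcs : IsCentredAt P (Fermat.Agent.S15.H542.jNBar p) (Fermat.Agent.S15.H542.jBar p) b a :=
    ⟨hc.hy, hc.hx⟩
  have hrelyx : ev (K := Qb) (Fermat.Agent.S15.H542.jNBar p) (Fermat.Agent.S15.H542.jBar p)
      (Fermat.Agent.S15.H542.phiK Qb Φ) = 0 := by
    rw [Fermat.Agent.S15.H542.ev_phiK]; exact hyx
  have h0yx : Fermat.Agent.S15.H962.eval2 Φ b a = 0 := by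
    rw [← Fermat.Agent.S15.H542.ev0_phiK]
    exact Fermat.Agent.S15.H542.ev0_eq_zero_of_isCentredAt hcs hrelyx
  rcases Fermat.Agent.S15.H962.val_root_of_isModularShape v hp.pos hshape hvb h0yx with hv | hv
  · rw [hv]
    exact one_lt_pow₀ hvb hp.pos.ne'
  · exact Fermat.Agent.S15.H962.one_lt_of_pow_eq hvb hv

end LevelP

end Fermat.Agent.S15.H602

end
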