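import Fermat.Agent.S15.H962.GeoK
import Fermat.Agent.S15.H362.CuspZero
import Fermat.Prelude.Def_AlgebraicCurve_Correspondence
import Fermat.Prelude.Def_ModularCurve_ReductionModL
import Fermat.Prelude.Def_ModularCurve_HeckeOperator

/-!
# S15 / GEO-PARTS (b) (helper602): FROZEN interface between IDENT and RED

`(b)` of GEO-PARTS is the hypothesis `hsp` of `H542.geoParts_of_pieces`, here `SpStatement p`.
It splits into

* `IdentBaseStatement p` (level `p`, used at the primes `q ≥ 5`): every place reduction `r` at
  level `p` along `A` (`p` invertible in the residue field) maps the residue disc of the cusp `0`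
  to `r (0)` and the residue disc of the cusp `∞` to `r (∞)`;
* `IdentLevelStatement p` (level `p * k`, used for `(q, k) = (2, 3), (3, 2)`): for every place
  reduction `r` at level `p * k` along `A` (`p * k` invertible in the residue field) and `P` in
  the residue disc of a cusp `c`,  `r_* π^* (P) = r_* π^* (c)`, `π^*` the pull-back of divisors
  along `F_p ⊂ F_{p k}`;
* RED: `IdentBaseStatement p → IdentLevelStatement p → SpStatement p` (reduction inputs
  `S37.Core.rimStatement`, injectivity `S18.result`, level transfer `S37.H818.transferInputs`).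
-/

set_option autoImplicit false
set_option synthInstance.maxHeartbeats 400000

noncomputable section

open AlgebraicCurve ModularCurve

namespace Fermat.Agent.S15.H602

open Fermat.Agent.S15.Core Fermat.Agent.S15.H962

/-- **(b) of GEO-PARTS**: exactly the hypothesis `hsp` of `H542.geoParts_of_pieces`. -/
def SpStatement (p : ℕ) [NeZero p] : Prop :=
  ∀ q : ℕ, q.Prime → q ≠ p →
    ∀ A : ValuationSubring (AlgebraicClosure ℚ), A.LiesOverPrime q →
    ∀ P₀ : Place (AlgebraicClosure ℚ) (modularFunctionFieldBar p), IsCuspZero p P₀ →
    ∃ (X : Type) (_ : AddCommGroup X) (sp₀ : JZero p →+ X),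
      (∀ (m : ℕ) (z : JZero p), ¬ q ∣ m → m • z = 0 → sp₀ z = 0 → z = 0) ∧
      KilledBy p A P₀ sp₀

/-- **IDENT at level `p`**: a place reduction maps the residue discs of the cusps to the
reductions of the cusps. -/
def IdentBaseStatement (p : ℕ) [NeZero p] : Prop :=
  p.Prime → 5 < p → ∀ A : ValuationSubring (AlgebraicClosure ℚ),
    ((p : ℕ) : IsLocalRing.ResidueField A) ≠ 0 →
    ∀ r : Place (AlgebraicClosure ℚ) (modularFunctionFieldBar p) →
        Place (IsLocalRing.ResidueField A)
          (modularFunctionFieldFullC (IsLocalRing.ResidueField A) p),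
      IsPlaceReductionModL A p r →
      ∀ P : Place (AlgebraicClosure ℚ) (modularFunctionFieldBar p),
        (InDiscZero p A P → r P = r (Fermat.Agent.S15.H362.cuspZero p)) ∧
        (InDiscInfty p A P → r P = r (cuspInfty p))

/-- **IDENT at level `p * k`**: `r_* π^* (P) = r_* π^* (cusp)` for `P` in the residue disc of the
cusp. -/
def IdentLevelStatement (p : ℕ) [NeZero p] : Prop :=
  p.Prime → 5 < p → ∀ (k : ℕ) [NeZero k], k.Prime → k ≠ p →
    ∀ A : ValuationSubring (AlgebraicClosure ℚ),
    ((p * k : ℕ) : IsLocalRing.ResidueField A) ≠ 0 →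
    ∀ r : Place (AlgebraicClosure ℚ) (modularFunctionFieldBar (p * k)) →
        Place (IsLocalRing.ResidueField A)
          (modularFunctionFieldFullC (IsLocalRing.ResidueField A) (p * k)),
      IsPlaceReductionModL A (p * k) r →
      ∀ (hι : (heckeAlphaBar (AlgebraicClosure ℚ) p k).toRingHom.IsIntegral)
        (P : Place (AlgebraicClosure ℚ) (modularFunctionFieldBar p)),
        (InDiscZero p A P →
          Finsupp.mapDomain r
              (Divisor.pullbackAlong (heckeAlphaBar (AlgebraicClosure ℚ) p k) hι
                (Finsupp.single P 1)) =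
            Finsupp.mapDomain r
              (Divisor.pullbackAlong (heckeAlphaBar (AlgebraicClosure ℚ) p k) hι
                (Finsupp.single (Fermat.Agent.S15.H362.cuspZero p) 1))) ∧
        (InDiscInfty p A P →
          Finsupp.mapDomain r
              (Divisor.pullbackAlong (heckeAlphaBar (AlgebraicClosure ℚ) p k) hι
                (Finsupp.single P 1)) =
            Finsupp.mapDomain r
              (Divisor.pullbackAlong (heckeAlphaBar (AlgebraicClosure ℚ) p k) hι
                (Finsupp.single (cuspInfty p) 1)))

end Fermat.Agent.S15.H602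

end
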