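import Fermat.Agent.S15.H602.IdentPull
import Fermat.Agent.S15.H602.IdentSpec

/-!
# S15 / GEO-PARTS (b) IDENT (helper602): the identification at level `p k`

`identLevel602 : IdentLevelStatement p` : for every place reduction `r` of `F_{p k}` along `A`
(`p k` invertible in the residue field) and every place `P` of `F_p` in the residue disc of a
cusp `c`,  `r_* π^* (P) = r_* π^* (c)`.

* disc of `0` (`j (P) = a`, `j_p (P) = b`, `v b ^ p = v a > 1`): `z = 1 - b⁻¹ j_p`, type `ū = 0`;
  the zeros of `z` lie near the cusps by the Newton polygon of the modular equation;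
* disc of `∞` (`v b = v a ^ p`): `z = 1 - a⁻¹ j`, type `ū ≠ 0`.
-/

set_option autoImplicit false
set_option synthInstance.maxHeartbeats 400000
set_option maxHeartbeats 1000000

noncomputable section

open AlgebraicCurve ModularCurve HahnSeries

namespace Fermat.Agent.S15.H602

open Fermat.Agent.S15.H722 Fermat.Agent.Lib.RR Fermat.Agent.S18.H725 Fermat.Agent.S15.H362

section Level

variable (p : ℕ) [NeZero p]

/-- a pole of `j` is near the cusps -/
theorem near_of_ord_jBar_neg602 (A : ValuationSubring Qb) {P' : Place Qb (FB p)}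
    (h : P'.ord (jBar p) < 0) : ∃ c' : A, ¬ IsUnit c' ∧ HasVal P' ((jBar p)⁻¹) (c' : Qb) := by
  refine ⟨0, not_isUnit_zero, ?_⟩
  have : HasVal P' ((jBar p)⁻¹) 0 := by
    apply hasVal_zero_of_ord_pos
    rw [Place.ord_inv]
    omega
  exact this

/-- a place with a non-integral `j`-value is near the cusps -/
theorem near_of_hasVal_jBar602 (A : ValuationSubring Qb) {P' : Place Qb (FB p)} {a' : Qb}
    (ha' : HasVal P' (jBar p) a') (hva' : 1 < A.valuation a') :
    ∃ c' : A, ¬ IsUnit c' ∧ HasVal P' ((jBar p)⁻¹) (c' : Qb) := by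
  have ha'0 := ne_zero_of_one_lt_val602 A hva'
  have hcv' := val_inv_lt_one602 A hva'
  have hcA' := mem_of_val_le_one602 A hcv'.le
  exact ⟨⟨a'⁻¹, hcA'⟩, not_isUnit_of_val_lt_one602 A hcA' hcv', ha'.inv ha'0⟩

theorem residue_one_ne_zero602 (A : ValuationSubring Qb) (h : (1 : Qb) ∈ A) :
    IsLocalRing.residue A ⟨1, h⟩ ≠ 0 := by
  have : (⟨1, h⟩ : A) = 1 := rfl
  rw [this, map_one]
  exact one_ne_zero

theorem residue_zero_eq_zero602 (A : ValuationSubring Qb) (h : (0 : Qb) ∈ A) :
    IsLocalRing.residue A ⟨0, h⟩ = 0 := by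
  have : (⟨0, h⟩ : A) = 0 := rfl
  rw [this, map_zero]

/-- **IDENT at level `p k`.** -/
theorem identLevel602 : IdentLevelStatement p := by
  intro hp _ k _ _ _ A hN r hr hι P
  have hp0 : (0 : ℤ) < p := by exact_mod_cast hp.pos
  constructor
  · -- the disc of the cusp `0`
    rintro ⟨a, b, hPa, hPb, hva, hvab⟩
    have ha : HasVal P (jBar p) a := (hasValueAt_jBar_iff602 p).mp hPa
    have hb : HasVal P (jLevelBar p) b := (hasValueAt_jNBar_iff602 p).mp hPb
    have hvb : 1 < A.valuation b := Fermat.Agent.S15.H962.one_lt_of_pow_eq hva hvab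
    have hb0 : b ≠ 0 := ne_zero_of_one_lt_val602 A hvb
    have ha0 : a ≠ 0 := ne_zero_of_one_lt_val602 A hva
    have hcv : A.valuation b⁻¹ < 1 := val_inv_lt_one602 A hvb
    have hcA : b⁻¹ ∈ A := mem_of_val_le_one602 A hcv.le
    refine ident_pull602 p k A hp hN r hr hι
      (jdO A (IsLocalRing.residue A) (p * k) (dvd_mul_right p k)) (jLevelBar p)
      (by rw [coe_jdO, alpha_jLevelBar602]) ⟨b⁻¹, hcA⟩
      (not_isUnit_of_val_lt_one602 A hcA hcv) b (inv_mul_cancel₀ hb0)
      (fun c => c = 0) P (cuspZero p) ?_ ?_ ?_ ?_ ?_ ?_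
    · rw [ord_sub_const_of_neg602 _ b (by rw [ord_cuspZero_jLevelBar]; omega),
        ord_cuspZero_jLevelBar]
    · exact ⟨0, zero_mem A, hasVal_ratio_cuspZero602 p hp, residue_zero_eq_zero602 A _⟩
    · exact hPb
    · have hβv := val_ratio_lt_one602 A hp.one_lt hva hvab
      have hβA := mem_of_val_le_one602 A hβv.le
      exact ⟨b / a ^ p, hβA, hasVal_ratio602 p ha hb ha0,
        residue_eq_zero602 A _ (not_isUnit_of_val_lt_one602 A hβA hβv)⟩
    · intro P' hP' hne
      have h1 : P'.ord (jLevelBar p) < 0 := ord_neg_of_ord_sub_const_neg602 P' b hP'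
      rcases eq_cusp_of_ord_jLevelBar_neg p hp P' h1 with rfl | rfl
      · exact ⟨1, one_mem A, hasVal_ratio_cuspInfty602 p, residue_one_ne_zero602 A _⟩
      · exact absurd rfl hne
    · intro P' hP'
      rcases lt_or_gt_of_ne hP' with hlt | hgt
      · have h1 : P'.ord (jLevelBar p) < 0 := ord_neg_of_ord_sub_const_neg602 P' b hlt
        exact near_of_ord_jBar_neg602 p A (ord_jBar_neg_of_jLevelBar602 p hp P' h1)
      · have hb' : HasVal P' (jLevelBar p) b := Or.inr hgt
        obtain ⟨a', ha'⟩ := exists_hasVal_jBar602 p hp hb'.ord_nonneg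
        have hva' := one_lt_val_jBar_of_jLevelBar602 p hp A.valuation ha' hb' hvb
        exact near_of_hasVal_jBar602 p A ha' hva'
  · -- the disc of the cusp `∞`
    rintro ⟨a, b, hPa, hPb, hva, hvab⟩
    have ha : HasVal P (jBar p) a := (hasValueAt_jBar_iff602 p).mp hPa
    have hb : HasVal P (jLevelBar p) b := (hasValueAt_jNBar_iff602 p).mp hPb
    have ha0 : a ≠ 0 := ne_zero_of_one_lt_val602 A hva
    have hcv : A.valuation a⁻¹ < 1 := val_inv_lt_one602 A hva
    have hcA : a⁻¹ ∈ A := mem_of_val_le_one602 A hcv.le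
    rw [← cuspInfty_eq_core]
    refine ident_pull602 p k A hp hN r hr hι
      (jO A (IsLocalRing.residue A) (p * k)) (jBar p)
      (by rw [coe_jO, alpha_jBar602]) ⟨a⁻¹, hcA⟩
      (not_isUnit_of_val_lt_one602 A hcA hcv) a (inv_mul_cancel₀ ha0)
      (fun c => c ≠ 0) P (cuspInfty p) ?_ ?_ ?_ ?_ ?_ ?_
    · rw [ord_sub_const_of_neg602 _ a (by rw [ord_cuspInfty_jBar]; omega), ord_cuspInfty_jBar]
    · exact ⟨1, one_mem A, hasVal_ratio_cuspInfty602 p, residue_one_ne_zero602 A _⟩
    · exact hPa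
    · have hβv := val_ratio_eq_one602 A hva hvab
      have hβA := mem_of_val_le_one602 A hβv.le
      exact ⟨b / a ^ p, hβA, hasVal_ratio602 p ha hb ha0,
        ((isUnit_of_val_eq_one602 A hβA hβv).map (IsLocalRing.residue A)).ne_zero⟩
    · intro P' hP' hne
      have h1 : P'.ord (jBar p) < 0 := ord_neg_of_ord_sub_const_neg602 P' a hP'
      rcases eq_cusp_of_ord_jBar_neg p hp P' h1 with rfl | rfl
      · exact absurd rfl hne
      · exact ⟨0, zero_mem A, hasVal_ratio_cuspZero602 p hp,
          fun h => h (residue_zero_eq_zero602 A _)⟩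
    · intro P' hP'
      rcases lt_or_gt_of_ne hP' with hlt | hgt
      · exact near_of_ord_jBar_neg602 p A (ord_neg_of_ord_sub_const_neg602 P' a hlt)
      · exact near_of_hasVal_jBar602 p A (Or.inr hgt) hva

end Level

end Fermat.Agent.S15.H602

end
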