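import Fermat.Agent.S15.H602.IdentLevP
import Fermat.Agent.S15.H602.IdentInf
import Fermat.Agent.Lib.FF398.Hecke

/-!
# S15 / GEO-PARTS (b) IDENT (helper602): the identification at level `p k`, generic form

`ident_pull602` : let `r` be a place reduction of `F_{p k}` along `A` (`p k` invertible in the
residue field), `f₀ ∈ {j, j_p} ⊂ F_p` with integral model `f`, `t ∈ ℚ̄` with `t⁻¹ = c ∈ 𝔪_A`,
`g = f₀ - t`, and `T` a type of residues.  If the pole `P_c` of `g` has order `1` and type `T`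
(for `u = j_p / j ^ p`), the other poles of `g` are not of type `T`, the zeros and poles of `g` are
near the cusps and `P` is a zero of `g` of type `T`, then `r_* π^* (P) = r_* π^* (P_c)`.
-/

set_option autoImplicit false
set_option synthInstance.maxHeartbeats 400000
set_option maxHeartbeats 1000000

noncomputable section

open AlgebraicCurve ModularCurve HahnSeries

namespace Fermat.Agent.S15.H602

open Fermat.Agent.S15.H722 Fermat.Agent.Lib.RR Fermat.Agent.S18.H725 Fermat.Agent.S15.H362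

section Val

variable (A : ValuationSubring Qb)

theorem residue_eq_zero602 (a : A) (ha : ¬ IsUnit a) : IsLocalRing.residue A a = 0 :=
  (IsLocalRing.residue_eq_zero_iff a).mpr ((IsLocalRing.mem_maximalIdeal a).mpr ha)

theorem mem_of_val_le_one602 {β : Qb} (h : A.valuation β ≤ 1) : β ∈ A :=
  (A.valuation_le_one_iff β).mp h

theorem not_isUnit_of_val_lt_one602 {β : Qb} (hβ : β ∈ A) (h : A.valuation β < 1) :
    ¬ IsUnit (⟨β, hβ⟩ : A) := by
  intro hu
  have h1 : A.valuation β = 1 := (A.valuation_eq_one_iff ⟨β, hβ⟩).mp hu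
  rw [h1] at h
  exact lt_irrefl _ h

theorem isUnit_of_val_eq_one602 {β : Qb} (hβ : β ∈ A) (h : A.valuation β = 1) :
    IsUnit (⟨β, hβ⟩ : A) :=
  (A.valuation_eq_one_iff ⟨β, hβ⟩).mpr h

theorem val_inv_lt_one602 {a : Qb} (ha : 1 < A.valuation a) : A.valuation a⁻¹ < 1 := by
  rw [map_inv₀]
  exact inv_lt_one_of_one_lt₀ ha

theorem ne_zero_of_one_lt_val602 {a : Qb} (ha : 1 < A.valuation a) : a ≠ 0 := by
  rintro rfl
  rw [map_zero] at ha
  exact absurd ha (not_lt.mpr zero_le_one)

theorem val_ratio_lt_one602 {a b : Qb} {p : ℕ} (hp : 1 < p) (ha : 1 < A.valuation a)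
    (hab : A.valuation b ^ p = A.valuation a) : A.valuation (b / a ^ p) < 1 := by
  have hb : 1 < A.valuation b := Fermat.Agent.S15.H962.one_lt_of_pow_eq ha hab
  rw [map_div₀, map_pow, ← hab, ← pow_mul]
  have h1 : A.valuation b < A.valuation b ^ (p * p) := by
    calc A.valuation b = A.valuation b ^ 1 := (pow_one _).symm
      _ < A.valuation b ^ (p * p) := pow_lt_pow_right₀ hb (by nlinarith)
  have h0 : 0 < A.valuation b ^ (p * p) := lt_trans (lt_trans zero_lt_one hb) h1
  exact (div_lt_one₀ h0).mpr h1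

theorem val_ratio_eq_one602 {a b : Qb} {p : ℕ} (ha : 1 < A.valuation a)
    (hab : A.valuation b = A.valuation a ^ p) : A.valuation (b / a ^ p) = 1 := by
  rw [map_div₀, map_pow, hab]
  exact div_self (pow_ne_zero _ (ne_of_gt (lt_trans zero_lt_one ha)))

end Val

section Transfer

variable {K F F' : Type*} [Field K] [Field F] [Field F'] [Algebra K F] [Algebra K F']

theorem ord_map_neg_iff602 (φ : F →ₐ[K] F') (hφ : φ.toRingHom.IsIntegral) (w : Place K F')
    (f : F) : w.ord (φ f) < 0 ↔ (w.restrictAlong φ hφ).ord f < 0 := by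
  have he : (0 : ℤ) < (w.ramificationIndexAlong φ : ℤ) := by
    exact_mod_cast ramificationIndexAlong_pos602 φ hφ w
  rw [Place.ord_restrictAlong φ hφ w f]
  constructor
  · intro h
    by_contra hc
    push Not at hc
    have := mul_nonneg he.le hc
    omega
  · intro h
    exact mul_neg_of_pos_of_neg he h

theorem ord_map_pos_iff602 (φ : F →ₐ[K] F') (hφ : φ.toRingHom.IsIntegral) (w : Place K F')
    (f : F) : 0 < w.ord (φ f) ↔ 0 < (w.restrictAlong φ hφ).ord f := by
  have he : (0 : ℤ) < (w.ramificationIndexAlong φ : ℤ) := by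
    exact_mod_cast ramificationIndexAlong_pos602 φ hφ w
  rw [Place.ord_restrictAlong φ hφ w f]
  exact mul_pos_iff_of_pos_left he

theorem ord_sub_const_of_neg602 (v : Place K F) {f : F} (c : K) (h : v.ord f < 0) :
    v.ord (f - algebraMap K F c) = v.ord f := by
  rcases eq_or_ne c 0 with rfl | hc
  · rw [map_zero, sub_zero]
  have hf : f ≠ 0 := ne_zero_of_ord_ne_zero v h.ne
  have hcne : -(algebraMap K F c) ≠ 0 := neg_ne_zero.mpr ((map_ne_zero _).mpr hc)
  rw [sub_eq_add_neg]
  exact ord_add_eq_of_lt v hf hcne (by rw [ord_neg, ord_algebraMap]; exact h)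

theorem ord_neg_of_ord_sub_const_neg602 (v : Place K F) {f : F} (c : K)
    (h : v.ord (f - algebraMap K F c) < 0) : v.ord f < 0 := by
  by_contra hcon
  push Not at hcon
  have := ord_sub_nonneg v hcon (by rw [ord_algebraMap] : 0 ≤ v.ord (algebraMap K F c))
  omega

end Transfer

section AbstractPull

variable {K F₀ F k Fk : Type*} [Field K] [Field F₀] [Field F] [Algebra K F₀] [Algebra K F]
  [Field k] [Field Fk] [Algebra k Fk]
variable {Φ : RedCore K F k Fk} (X : InfCoord Φ) [HasPrincipalDivisors K F]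

/-- **IDENT along an embedding, with the data pulled back from the lower level.**
`u = ι u₀` the type function, `x = ι x₀` the coordinate at infinity, `f = ι f₀` integral,
`c ∈ 𝔪_A`, `c t = 1`, `g = f₀ - t`. -/
theorem mapDomain_pullback_eq_of_level602
    (hdeg1 : ∀ v : Place K F, v.deg = 1) (hdeg0 : ∀ v : Place K F₀, v.deg = 1)
    (hr : ∀ P, (Φ.r P).deg = P.deg)
    (ι : F₀ →ₐ[K] F) (hι : ι.toRingHom.IsIntegral) (hFI : FundamentalIdentityAlong K ι hι)
    (u : Φ.O) (u₀ : F₀) (hucoe : (u : F) = ι u₀) (x₀ : F₀) (hxcoe : (X.x : F) = ι x₀)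
    (hupoles₀ : ∀ P' : Place K F₀, P'.ord u₀ < 0 → P'.ord x₀ < 0)
    (f : Φ.O) (f₀ : F₀) (hf : (f : F) = ι f₀)
    (c : Φ.A) (hc : ¬ IsUnit c) (t : K) (hct : (c : K) * t = 1)
    (T : k → Prop) (P Pc : Place K F₀)
    (hPc : Pc.ord (f₀ - algebraMap K F₀ t) = -1)
    (hTc : ∃ (β : K) (hβ : β ∈ Φ.A), HasVal Pc u₀ β ∧ T (Φ.res ⟨β, hβ⟩))
    (hP : 0 < P.ord (f₀ - algebraMap K F₀ t))
    (hTP : ∃ (β : K) (hβ : β ∈ Φ.A), HasVal P u₀ β ∧ T (Φ.res ⟨β, hβ⟩))
    (hpoles : ∀ P' : Place K F₀, P'.ord (f₀ - algebraMap K F₀ t) < 0 → P' ≠ Pc →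
      ∃ (β : K) (hβ : β ∈ Φ.A), HasVal P' u₀ β ∧ ¬ T (Φ.res ⟨β, hβ⟩))
    (hnear : ∀ P' : Place K F₀, P'.ord (f₀ - algebraMap K F₀ t) ≠ 0 →
      ∃ c' : Φ.A, ¬ IsUnit c' ∧ HasVal P' x₀ (c' : K)) :
    Finsupp.mapDomain Φ.r (Divisor.pullbackAlong ι hι (Finsupp.single P 1)) =
      Finsupp.mapDomain Φ.r (Divisor.pullbackAlong ι hι (Finsupp.single Pc 1)) := by
  classical
  have hupoles : ∀ W : Place K F, W.ord (u : F) < 0 → W.ord (X.x : F) < 0 := by
    intro W hW
    rw [hucoe, ord_map_neg_iff602 _ hι] at hW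
    rw [hxcoe, ord_map_neg_iff602 _ hι]
    exact hupoles₀ _ hW
  -- the function `z = 1 - c f = - c (f - t)`
  set g : F₀ := f₀ - algebraMap K F₀ t with hg
  have hc0 : (c : K) ≠ 0 := left_ne_zero_of_mul_eq_one hct
  set z : Φ.O := 1 - Φ.const c * f with hz
  have hρz : Φ.ρ z = 1 := by
    rw [hz, map_sub, map_one, map_mul, Φ.ρ_const', Φ.res_eq_zero c hc, map_zero, zero_mul,
      sub_zero]
  have hzcoe : (z : F) = -(algebraMap K F (c : K) * ι g) := by
    have h1 : (z : F) = 1 - algebraMap K F (c : K) * ι f₀ := by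
      rw [← hf]; rfl
    rw [h1, hg, map_sub, AlgHom.commutes, mul_sub, ← map_mul, hct, map_one]
    ring
  have hzord : ∀ W : Place K F, W.ord (z : F) =
      (W.ramificationIndexAlong ι : ℤ) * (W.restrictAlong ι hι).ord g := by
    intro W
    rw [hzcoe, ord_neg, ord_const_mul W hc0, Place.ord_restrictAlong _ hι]
  have he : ∀ W : Place K F, (0 : ℤ) < (W.ramificationIndexAlong ι : ℤ) := fun W => by
    exact_mod_cast ramificationIndexAlong_pos602 ι hι W
  -- types transfer from the lower level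
  have htype : ∀ (S : k → Prop) (W : Place K F),
      (∃ (β : K) (hβ : β ∈ Φ.A), HasVal (W.restrictAlong ι hι) u₀ β ∧ S (Φ.res ⟨β, hβ⟩)) →
      HasType602 u S W := by
    rintro S W ⟨β, hβ, hv, hS⟩
    refine ⟨β, hβ, ?_, hS⟩
    rw [hucoe]
    exact (hasVal_map_iff602 _ hι W _ β).mpr hv
  refine mapDomain_pullback_eq602 X hdeg1 hr ι hι hFI hupoles z hρz T P Pc ?_ ?_ ?_ ?_ ?_
  · rw [hdeg0 P, hdeg0 Pc]
  · -- `h1`
    intro W hW
    rw [hzord W] at hW
    have hg0 : (W.restrictAlong ι hι).ord g ≠ 0 := by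
      intro h0
      rw [h0, mul_zero] at hW
      exact hW rfl
    obtain ⟨c', hc', hv⟩ := hnear _ hg0
    refine ⟨c', hc', ?_⟩
    rw [hxcoe]
    exact (hasVal_map_iff602 _ hι W _ _).mpr hv
  · -- `h2`
    intro W hW
    refine ⟨?_, htype T W (by rw [hW]; exact hTc)⟩
    rw [hzord W, hW, hPc]
    ring
  · -- `h3`
    intro W hWneg hWne
    refine htype _ W (hpoles _ ?_ hWne)
    rw [hzord W] at hWneg
    by_contra hcon
    push Not at hcon
    have := mul_nonneg (he W).le hcon
    omega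
  · -- `h4`
    intro W hW
    refine ⟨?_, htype T W (by rw [hW]; exact hTP)⟩
    rw [hzord W, hW]
    have h1 : (1 : ℤ) ≤ P.ord g := hP
    have := he W
    nlinarith

end AbstractPull

section Pull

variable (p k : ℕ) [NeZero p] [NeZero k]

theorem alpha_jBar602 : heckeAlphaBar Qb p k (jBar p) = jF Qb (p * k) :=
  Subtype.ext (by rw [coe_heckeAlphaBar, coe_jBar_eq602]; rfl)

theorem alpha_jLevelBar602 :
    heckeAlphaBar Qb p k (jLevelBar p) = jdF Qb (p * k) (dvd_mul_right p k) :=
  Subtype.ext (by rw [coe_heckeAlphaBar, coe_jLevelBar_eq602]; rfl)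

theorem alpha_ratio602 :
    heckeAlphaBar Qb p k (ratio602 p) =
      jdF Qb (p * k) (dvd_mul_right p k) / jF Qb (p * k) ^ p := by
  unfold ratio602
  rw [map_div₀, map_pow, alpha_jBar602, alpha_jLevelBar602]

variable (A : ValuationSubring Qb)

/-- **IDENT at level `p k`, generic form.** -/
theorem ident_pull602 (hp : p.Prime)
    (hN : ((p * k : ℕ) : IsLocalRing.ResidueField A) ≠ 0)
    (r : Place Qb (laurentBaseChange Qb (modularFunctionFieldFull (p * k))) →
      Place (IsLocalRing.ResidueField A)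
        (modularFunctionFieldFullC (IsLocalRing.ResidueField A) (p * k)))
    (hr : IsPlaceReductionAlong A (IsLocalRing.residue A) (p * k) r)
    (hι : (heckeAlphaBar Qb p k).toRingHom.IsIntegral)
    (f : intO A (IsLocalRing.residue A) (laurentBaseChange Qb (modularFunctionFieldFull (p * k)))
      (modularFunctionFieldFullC (IsLocalRing.ResidueField A) (p * k)))
    (f₀ : FB p)
    (hf : ((f : intO A (IsLocalRing.residue A)
        (laurentBaseChange Qb (modularFunctionFieldFull (p * k)))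
        (modularFunctionFieldFullC (IsLocalRing.ResidueField A) (p * k))) :
          laurentBaseChange Qb (modularFunctionFieldFull (p * k))) = heckeAlphaBar Qb p k f₀)
    (c : A) (hc : ¬ IsUnit c) (t : Qb) (hct : (c : Qb) * t = 1)
    (T : IsLocalRing.ResidueField A → Prop) (P Pc : Place Qb (FB p))
    (hPc : Pc.ord (f₀ - algebraMap Qb (FB p) t) = -1)
    (hTc : ∃ (β : Qb) (hβ : β ∈ A), HasVal Pc (ratio602 p) β ∧
      T (IsLocalRing.residue A ⟨β, hβ⟩))
    (hP : 0 < P.ord (f₀ - algebraMap Qb (FB p) t))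
    (hTP : ∃ (β : Qb) (hβ : β ∈ A), HasVal P (ratio602 p) β ∧
      T (IsLocalRing.residue A ⟨β, hβ⟩))
    (hpoles : ∀ P' : Place Qb (FB p), P'.ord (f₀ - algebraMap Qb (FB p) t) < 0 → P' ≠ Pc →
      ∃ (β : Qb) (hβ : β ∈ A), HasVal P' (ratio602 p) β ∧
        ¬ T (IsLocalRing.residue A ⟨β, hβ⟩))
    (hnear : ∀ P' : Place Qb (FB p), P'.ord (f₀ - algebraMap Qb (FB p) t) ≠ 0 →
      ∃ c' : A, ¬ IsUnit c' ∧ HasVal P' ((jBar p)⁻¹) (c' : Qb)) :
    Finsupp.mapDomain r
        (Divisor.pullbackAlong (heckeAlphaBar Qb p k) hι (Finsupp.single P 1)) =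
      Finsupp.mapDomain r
        (Divisor.pullbackAlong (heckeAlphaBar Qb p k) hι (Finsupp.single Pc 1)) := by
  classical
  have hπ : ∀ a : A, ¬ IsUnit a → IsLocalRing.residue A a = 0 := residue_eq_zero602 A
  have hsign := sign_red_jF602 (p * k) A hN r hr
  have hdeg1 : ∀ v : Place Qb (laurentBaseChange Qb (modularFunctionFieldFull (p * k))),
      v.deg = 1 := Fermat.Agent.Lib.FF398.deg_eq_one_FF (p * k)
  have hFI : FundamentalIdentityAlong Qb (heckeAlphaBar Qb p k) hι :=
    Fermat.Agent.Lib.FF398.fundamentalIdentityAlong_alpha p k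
  have hucoe : ((jdO A (IsLocalRing.residue A) (p * k) (dvd_mul_right p k) *
      xO A (IsLocalRing.residue A) (p * k) ^ p : intO A (IsLocalRing.residue A)
      (laurentBaseChange Qb (modularFunctionFieldFull (p * k)))
      (modularFunctionFieldFullC (IsLocalRing.ResidueField A) (p * k))) :
        laurentBaseChange Qb (modularFunctionFieldFull (p * k))) =
      heckeAlphaBar Qb p k (ratio602 p) := by
    rw [alpha_ratio602]
    push_cast
    rw [coe_jdO, coe_xO, inv_pow, div_eq_mul_inv]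
  have hxcoe : ((xO A (IsLocalRing.residue A) (p * k) : intO A (IsLocalRing.residue A)
      (laurentBaseChange Qb (modularFunctionFieldFull (p * k)))
      (modularFunctionFieldFullC (IsLocalRing.ResidueField A) (p * k))) :
        laurentBaseChange Qb (modularFunctionFieldFull (p * k))) =
      heckeAlphaBar Qb p k ((jBar p)⁻¹) := by
    rw [map_inv₀, alpha_jBar602]
    exact coe_xO A (IsLocalRing.residue A) (p * k)
  have hupoles₀ : ∀ P' : Place Qb (FB p), P'.ord (ratio602 p) < 0 →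
      P'.ord ((jBar p)⁻¹) < 0 := by
    intro P' hP'
    rw [Place.ord_inv]
    have := ord_jBar_pos_of_ord_ratio_neg602 p hp P' hP'
    omega
  exact mapDomain_pullback_eq_of_level602
    (Φ := modRedCore A (IsLocalRing.residue A) (p * k) hπ r hr)
    (modInfCoord A (IsLocalRing.residue A) (p * k) hπ r hr (fun W => (hsign W).2)
      (fun W => (hsign W).1))
    hdeg1 (Fermat.Agent.Lib.FF398.deg_eq_one_FF p) hr.1 (heckeAlphaBar Qb p k) hι hFI
    (jdO A (IsLocalRing.residue A) (p * k) (dvd_mul_right p k) *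
      xO A (IsLocalRing.residue A) (p * k) ^ p) (ratio602 p) hucoe ((jBar p)⁻¹) hxcoe hupoles₀
    f f₀ hf c hc t hct T P Pc hPc hTc hP hTP hpoles hnear

end Pull

end Fermat.Agent.S15.H602

end
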